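/-
S59, unit H: the valuation component of the extension class at `p` of an ordinary matrix
representation modulo an ideal of finite index.

For `σ` in the decomposition group at `A` fixing the roots of unity of order `p ^ f - 1`, with `f`
such that the unramified character is `1` there, `σ ↦ ψ (b σ)` is a cocycle for every additive
character `ψ` of `R ⧸ I`, hence `σ w / w` for some `w`; the value of `w ^ (p ^ n)` is a power
`v(p) ^ k`, and `ψ ↦ ζ_{p ^ n} ^ k` is evaluation at the class `c`.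
-/
import Fermat.Agent.NewVec.InertiaField
import Fermat.Agent.LL.Gen.Decomp
import Fermat.Agent.GalRep.Cyclo
import Fermat.Agent.Deform.MatrixRep
import Mathlib.GroupTheory.FiniteAbelian.Duality

set_option autoImplicit false
set_option linter.style.haveILetI false
set_option linter.unusedSectionVars false

noncomputable section

namespace Fermat.Agent.R59.Phi

open IsLocalRing
open Fermat.Agent.Galois (GQ)
open Fermat.Agent.Deform (Mat2 mapHom)

local notation "ℚb" => AlgebraicClosure ℚ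

/-- Hilbert 90 on a subgroup of the absolute Galois group, for a cocycle of finite level. -/
theorem exists_apply_eq_mul (H : Subgroup GQ) (F : IntermediateField ℚ ℚb) [FiniteDimensional ℚ F]
    (f : GQ → ℚb) (hf : ∀ g ∈ H, ∀ h ∈ H, f (g * h) = f g * g (f h))
    (hne : ∀ g ∈ H, f g ≠ 0) (hF : ∀ s ∈ H, (∀ x ∈ F, s x = x) → f s = 1) :
    ∃ w : ℚb, w ≠ 0 ∧ ∀ g ∈ H, g w = f g * w := by
  classical
  let emb : GQ → (F →ₐ[ℚ] ℚb) := fun g => (g : ℚb →ₐ[ℚ] ℚb).comp F.val
  let E : Finset (F →ₐ[ℚ] ℚb) := Finset.univ.filter fun s => ∃ g ∈ H, emb g = s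
  have hmem : ∀ s, s ∈ E ↔ ∃ g ∈ H, emb g = s := fun s => by simp [E]
  choose! rep hrepH hrep using fun s (hs : s ∈ E) => (hmem s).mp hs
  have hconst : ∀ g ∈ H, ∀ h ∈ H, emb g = emb h → f g = f h := by
    intro g hg h hh he
    have hk : g⁻¹ * h ∈ H := mul_mem (inv_mem hg) hh
    have h1 := hf g hg _ hk
    rw [mul_inv_cancel_left, hF _ hk fun x hx => ?_, map_one, mul_one] at h1
    · exact h1.symm
    · rw [AlgEquiv.mul_apply, ← show g x = h x from DFunLike.congr_fun he ⟨x, hx⟩]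
      exact g.symm_apply_apply x
  let val : F → ℚb := fun x => ∑ s ∈ E, f (rep s) * s x
  obtain ⟨x, hx⟩ : ∃ x, val x ≠ 0 := by
    by_contra hc
    push Not at hc
    have hli := (linearIndependent_monoidHom F ℚb).comp
      (fun s : F →ₐ[ℚ] ℚb => (s : F →* ℚb)) fun a b hab =>
        AlgHom.ext fun z => DFunLike.congr_fun hab z
    have h0 := linearIndependent_iff'.mp hli E (fun s => f (rep s)) (by
      funext z
      simpa [Finset.sum_apply, Pi.smul_apply] using hc z)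
    have h1 : emb 1 ∈ E := (hmem _).mpr ⟨1, one_mem _, rfl⟩
    exact hne _ (hrepH _ h1) (h0 _ h1)
  refine ⟨(val x)⁻¹, inv_ne_zero hx, fun g hg => ?_⟩
  have hmaps : ∀ s ∈ E, (g : ℚb →ₐ[ℚ] ℚb).comp s ∈ E := fun s hs =>
    (hmem _).mpr ⟨g * rep s, mul_mem hg (hrepH s hs), by
      conv_rhs => rw [← hrep s hs]
      rfl⟩
  have hinj : Function.Injective fun s : F →ₐ[ℚ] ℚb => (g : ℚb →ₐ[ℚ] ℚb).comp s :=
    fun a b hab => AlgHom.ext fun z => g.injective (DFunLike.congr_fun hab z)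
  have himg : E.image (fun s => (g : ℚb →ₐ[ℚ] ℚb).comp s) = E := by
    refine Finset.eq_of_subset_of_card_le (Finset.image_subset_iff.mpr hmaps) (le_of_eq ?_)
    rw [Finset.card_image_of_injective _ hinj]
  have hkey : f g * g (val x) = val x := by
    simp only [val, map_sum, map_mul, Finset.mul_sum]
    conv_rhs => rw [← himg]
    rw [Finset.sum_image fun a _ b _ hab => hinj hab]
    refine Finset.sum_congr rfl fun s hs => ?_
    rw [← mul_assoc, ← hf g hg _ (hrepH s hs),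
      hconst _ (mul_mem hg (hrepH s hs)) _ (hrepH _ (hmaps s hs)) (by
        rw [hrep _ (hmaps s hs)]
        conv_rhs => rw [← hrep s hs]
        rfl)]
    rfl
  have hg0 : g (val x) ≠ 0 := fun h0 => hx (g.injective (h0.trans (map_zero g).symm))
  rw [map_inv₀, inv_eq_iff_eq_inv, mul_inv, inv_inv, eq_inv_mul_iff_mul_eq₀ (hne g hg)]
  exact hkey

/-- The reduction of a matrix representation. -/
abbrev red {R : Type} [CommRing R] (r : GQ →* Mat2 R) (I : Ideal R) : GQ →* Mat2 (R ⧸ I) :=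
  (mapHom (Ideal.Quotient.mk I)).comp r

variable {R : Type} [CommRing R] {p : ℕ} [Fact p.Prime] {A : ValuationSubring (AlgebraicClosure ℚ)}
  {r : GQ →* Mat2 R}

/-- A matrix representation of cyclotomic determinant, upper triangular on the decomposition group
at `A` with unramified quotient. -/
structure OrdAt (p : ℕ) (A : ValuationSubring (AlgebraicClosure ℚ)) (r : GQ →* Mat2 R) : Prop where
  liesOver : A.LiesOverPrime p
  low : ∀ σ ∈ A.decompositionSubgroup ℚ, r σ 1 0 = 0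
  unram : ∀ σ ∈ A.inertiaSubgroupIn ℚ, r σ 1 1 = 1
  cts : ∀ I : Ideal R, Finite (R ⧸ I) → ∃ L : IntermediateField ℚ ℚb, FiniteDimensional ℚ L ∧
    ∀ σ : GQ, (∀ x ∈ L, σ x = x) → red r I σ = 1
  det : ∀ (n : ℕ) (σ : GQ) (a : ℕ), (∀ μ : ℚb, μ ^ p ^ n = 1 → σ μ = μ ^ a) →
    (r σ).det - (a : R) ∈ Ideal.span {((p ^ n : ℕ) : R)}

/-- The decomposition elements fixing the roots of unity of order `p ^ f - 1`. -/
def degGroup (p : ℕ) (A : ValuationSubring (AlgebraicClosure ℚ)) (f : ℕ) : Subgroup GQ where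
  carrier := {σ | σ ∈ A.decompositionSubgroup ℚ ∧ ∀ ζ : ℚb, ζ ^ (p ^ f - 1) = 1 → σ ζ = ζ}
  mul_mem' {a b} ha hb := ⟨mul_mem ha.1 hb.1, fun ζ hζ => by
    rw [AlgEquiv.mul_apply, hb.2 ζ hζ, ha.2 ζ hζ]⟩
  one_mem' := ⟨one_mem _, fun ζ _ => rfl⟩
  inv_mem' {a} ha := ⟨inv_mem ha.1, fun ζ hζ => by
    conv_lhs => rw [← ha.2 ζ hζ]
    exact a.symm_apply_apply ζ⟩

theorem degGroup_anti {f f' : ℕ} (h : f ∣ f') : degGroup p A f' ≤ degGroup p A f := by
  intro σ hσ
  obtain ⟨e, he⟩ := Nat.pow_sub_one_dvd_pow_sub_one p h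
  exact ⟨hσ.1, fun ζ hζ => hσ.2 ζ (by rw [he, pow_mul, hζ, one_pow])⟩

theorem inertia_le_degGroup (hA : A.LiesOverPrime p) {f : ℕ} (hf : 0 < f) :
    A.inertiaSubgroupIn ℚ ≤ degGroup p A f := fun σ hσ =>
  ⟨FlatBound.inertia_mem_decomposition hσ, fun ζ hζ => NewVec.fixed_of_pow_eq_one Fact.out hA
    (fun hd => by
      have h1 : p ∣ p ^ f - (p ^ f - 1) :=
        Nat.dvd_sub (dvd_pow_self p hf.ne') hd
      rw [Nat.sub_sub_self (Nat.one_le_pow _ _ (Fact.out : p.Prime).pos)] at h1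
      exact (Fact.out : p.Prime).not_dvd_one h1) hζ hσ⟩

theorem conj_mem_degGroup {f : ℕ} {φ σ : GQ} (hφ : φ ∈ A.decompositionSubgroup ℚ)
    (hσ : σ ∈ degGroup p A f) : φ⁻¹ * σ * φ ∈ degGroup p A f :=
  ⟨mul_mem (mul_mem (inv_mem hφ) hσ.1) hφ, fun ζ hζ => by
    rw [AlgEquiv.mul_apply, AlgEquiv.mul_apply, hσ.2 (φ ζ) (by rw [← map_pow, hζ, map_one])]
    exact φ.symm_apply_apply ζ⟩

variable (p A r) in
/-- The unramified character is `1` modulo `I` on `degGroup p A f`. -/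
def GoodDeg (I : Ideal R) (f : ℕ) : Prop :=
  0 < f ∧ ∀ σ ∈ degGroup p A f, red r I σ 1 1 = 1

variable (p A r) in
/-- `w` trivialises the cocycle of the character `ψ`, its valuation component being `k`. -/
structure Datum (I : Ideal R) (n : ℕ) (ψ : AddChar (R ⧸ I) ℚb) (f : ℕ) (w : ℚb) (k : ℤ) : Prop where
  ne : w ≠ 0
  cocycle : ∀ σ ∈ degGroup p A f, σ w = ψ (red r I σ 0 1) * w
  val : A.valuation (w ^ p ^ n) = A.valuation (p : ℚb) ^ k

namespace GoodDeg

theorem of_dvd {I : Ideal R} {f f' : ℕ} (h : GoodDeg p A r I f) (hd : f ∣ f') (hf' : 0 < f') :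
    GoodDeg p A r I f' :=
  ⟨hf', fun σ hσ => h.2 σ (degGroup_anti hd hσ)⟩

theorem mul_left {I : Ideal R} {f f' : ℕ} (h : GoodDeg p A r I f) (hf' : 0 < f') :
    GoodDeg p A r I (f * f') := h.of_dvd (dvd_mul_right f f') (Nat.mul_pos h.1 hf')

end GoodDeg

variable (h : OrdAt p A r)

include h

theorem red_low (I : Ideal R) {σ : GQ} (hσ : σ ∈ A.decompositionSubgroup ℚ) :
    red r I σ 1 0 = 0 := by
  show Ideal.Quotient.mk I (r σ 1 0) = 0
  rw [h.low σ hσ, map_zero]

theorem red_det_eq (I : Ideal R) {σ : GQ} (hσ : σ ∈ A.decompositionSubgroup ℚ) :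
    (red r I σ).det = red r I σ 0 0 * red r I σ 1 1 := by
  rw [Matrix.det_fin_two, red_low h I hσ, mul_zero, sub_zero]

theorem red_mul_oo (I : Ideal R) {σ : GQ} (hσ : σ ∈ A.decompositionSubgroup ℚ) (τ : GQ) :
    red r I (σ * τ) 1 1 = red r I σ 1 1 * red r I τ 1 1 := by
  rw [map_mul, Matrix.mul_apply, Fin.sum_univ_two, red_low h I hσ, zero_mul, zero_add]

theorem red_mul_zo (I : Ideal R) (σ τ : GQ) :
    red r I (σ * τ) 0 1 = red r I σ 0 0 * red r I τ 0 1 + red r I σ 0 1 * red r I τ 1 1 := by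
  rw [map_mul, Matrix.mul_apply, Fin.sum_univ_two]

/-- Galois acts on the values of a character through the determinant. -/
theorem apply_char {I : Ideal R} {n : ℕ} (hI : ((p ^ n : ℕ) : R) ∈ I) (ψ : AddChar (R ⧸ I) ℚb)
    (σ : GQ) (x : R ⧸ I) : σ (ψ x) = ψ ((red r I σ).det * x) := by
  have h0 : ((p ^ n : ℕ) : R ⧸ I) = 0 := by
    rw [← map_natCast (Ideal.Quotient.mk I), Ideal.Quotient.eq_zero_iff_mem]; exact hI
  set a := ((GalRep.cyc p σ).val.toZModPow n).val with ha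
  have hx : σ (ψ x) = ψ x ^ a := GalRep.cyc_spec p σ (ψ x) (by
    rw [← AddChar.map_nsmul_eq_pow, nsmul_eq_mul, h0, zero_mul, AddChar.map_zero_eq_one])
  have hdet : (red r I σ).det = (a : R ⧸ I) := by
    rw [← map_natCast (Ideal.Quotient.mk I) a, ← sub_eq_zero]
    show ((Ideal.Quotient.mk I).mapMatrix (r σ)).det - _ = 0
    rw [← RingHom.map_det, ← map_sub, Ideal.Quotient.eq_zero_iff_mem]
    exact (Ideal.span_singleton_le_iff_mem _).mpr hI
      (h.det n σ a fun μ hμ => GalRep.cyc_spec p σ μ hμ)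
  rw [hx, hdet, ← nsmul_eq_mul, AddChar.map_nsmul_eq_pow]

/-- The level of an ideal of finite index. -/
theorem exists_galois_level (I : Ideal R) [Finite (R ⧸ I)] :
    ∃ L : IntermediateField ℚ ℚb, FiniteDimensional ℚ L ∧ Normal ℚ L ∧
      ∀ σ : GQ, (∀ x ∈ L, σ x = x) → red r I σ = 1 := by
  obtain ⟨L, hL, hr⟩ := h.cts I inferInstance
  haveI : Normal ℚ ℚb := IsGalois.to_normal
  refine ⟨IntermediateField.normalClosure ℚ L ℚb, normalClosure.is_finiteDimensional ℚ _ _,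
    normalClosure.normal ℚ _ _, fun σ hσ => ?_⟩
  exact hr σ fun x hx => hσ x (L.le_normalClosure hx)

theorem exists_goodDeg (I : Ideal R) [Finite (R ⧸ I)] : ∃ f, GoodDeg p A r I f := by
  have hp : p.Prime := Fact.out
  obtain ⟨φ, hφ⟩ := Galois.exists_isFrobeniusAt hp h.liesOver
  obtain ⟨hφd, hφr⟩ := id hφ
  obtain ⟨L, hL, hLn, hr⟩ := exists_galois_level h I
  have hinv : red r I φ⁻¹ 1 1 * red r I φ 1 1 = 1 := by
    rw [← red_mul_oo h I (inv_mem hφd), inv_mul_cancel, map_one]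
    rfl
  set u : (R ⧸ I)ˣ := ⟨red r I φ 1 1, red r I φ⁻¹ 1 1, by rw [mul_comm]; exact hinv, hinv⟩ with hu
  obtain ⟨k, hk, hkone⟩ := isOfFinOrder_iff_pow_eq_one.mp (isOfFinOrder_of_finite u)
  refine ⟨k, hk, fun σ hσ => ?_⟩
  have hm : 0 < p ^ k - 1 := Nat.sub_pos_of_lt (Nat.one_lt_pow hk.ne' hp.one_lt)
  haveI : NeZero (p ^ k - 1) := ⟨hm.ne'⟩
  obtain ⟨ζ, hζ⟩ := HasEnoughRootsOfUnity.exists_primitiveRoot ℚb (p ^ k - 1)
  let M : IntermediateField ℚ ℚb := IntermediateField.adjoin ℚ {ζ}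
  haveI : FiniteDimensional ℚ M :=
    IntermediateField.adjoin.finiteDimensional (Algebra.IsIntegral.isIntegral ζ)
  haveI : Normal ℚ ℚb := IsGalois.to_normal
  let F : IntermediateField ℚ ℚb := IntermediateField.normalClosure ℚ (L ⊔ M : IntermediateField ℚ ℚb) ℚb
  haveI : FiniteDimensional ℚ F := normalClosure.is_finiteDimensional ℚ _ _
  haveI : Normal ℚ F := normalClosure.normal ℚ _ _
  have hLF : L ≤ F := le_sup_left.trans (L ⊔ M : IntermediateField ℚ ℚb).le_normalClosure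
  have hMF : M ≤ F := le_sup_right.trans (L ⊔ M : IntermediateField ℚ ℚb).le_normalClosure
  obtain ⟨N, s, hs, hsx⟩ := LL.exists_frob_pow_mul_inertia hp h.liesOver hφ hσ.1 F
  have heq : red r I σ = red r I (φ ^ N * s) := by
    have h1 : red r I ((φ ^ N * s)⁻¹ * σ) = 1 := hr _ fun x hx => by
      rw [AlgEquiv.mul_apply, hsx x (hLF hx)]
      exact (φ ^ N * s).symm_apply_apply x
    calc red r I σ = red r I ((φ ^ N * s) * ((φ ^ N * s)⁻¹ * σ)) := by rw [mul_inv_cancel_left]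
      _ = _ := by rw [map_mul, h1, mul_one]
  -- Frobenius on the roots of unity
  have hnd : ¬ p ∣ p ^ k - 1 := fun hd => by
    have h1 : p ∣ p ^ k - (p ^ k - 1) := Nat.dvd_sub (dvd_pow_self p hk.ne') hd
    rw [Nat.sub_sub_self (Nat.one_le_pow _ _ hp.pos)] at h1
    exact hp.not_dvd_one h1
  have hfrob : ∀ x : ℚb, x ^ (p ^ k - 1) = 1 → φ x = x ^ p := by
    intro x hx
    have hxA : x ∈ A := Galois.integralClosure_le A ⟨x, IsIntegral.of_pow hm (hx ▸ isIntegral_one)⟩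
    let y : A := ⟨x, hxA⟩
    have hy : y ^ (p ^ k - 1) = 1 := Subtype.ext hx
    exact congrArg Subtype.val (GalRep.pow_eq_of_residue_eq hp h.liesOver hnd
      (x := (⟨φ, hφd⟩ : A.decompositionSubgroup ℚ) • y) (y := y ^ p)
      (by rw [← smul_pow', hy, smul_one]) (by rw [← pow_mul, mul_comm, pow_mul, hy, one_pow])
      (by rw [ResidueField.residue_smul, hφ.smul_residue_eq, map_pow]))
  have hpow : ∀ j : ℕ, (φ ^ j) ζ = ζ ^ p ^ j := by
    intro j
    induction j with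
    | zero => simp
    | succ j ih =>
      rw [pow_succ', AlgEquiv.mul_apply, ih, map_pow, hfrob ζ hζ.pow_eq_one, ← pow_mul, pow_succ']
  have hfix : ζ ^ p ^ N = ζ := by
    have h1 := hsx ζ (hMF (IntermediateField.mem_adjoin_simple_self ℚ ζ))
    rw [hσ.2 ζ hζ.pow_eq_one, AlgEquiv.mul_apply,
      (inertia_le_degGroup h.liesOver hk hs).2 ζ hζ.pow_eq_one, hpow] at h1
    exact h1.symm
  have hdvd : k ∣ N := by
    have hmod : p ^ k - 1 ∣ p ^ N - 1 := by
      refine hζ.dvd_of_pow_eq_one _ (mul_right_cancel₀ (hζ.ne_zero hm.ne') ?_)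
      rw [← pow_succ, Nat.sub_add_cancel (Nat.one_le_pow _ _ hp.pos), hfix, one_mul]
    have h2 : p ^ k - 1 ∣ p ^ (N % k) - 1 := by
      have h3 : ζ ^ p ^ (N % k) = ζ := by
        have h4 : ∀ j, ζ ^ p ^ (k * j) = ζ := fun j => by
          induction j with
          | zero => simp
          | succ j ih =>
            rw [mul_add, mul_one, pow_add, pow_mul, ih]
            calc ζ ^ p ^ k = ζ ^ (p ^ k - 1 + 1) := by
                  rw [Nat.sub_add_cancel (Nat.one_le_pow _ _ hp.pos)]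
              _ = ζ := by rw [pow_succ, hζ.pow_eq_one, one_mul]
        conv_rhs => rw [← hfix, ← Nat.mod_add_div N k, pow_add, mul_comm, pow_mul, h4]
      refine hζ.dvd_of_pow_eq_one _ (mul_right_cancel₀ (hζ.ne_zero hm.ne') ?_)
      rw [← pow_succ, Nat.sub_add_cancel (Nat.one_le_pow _ _ hp.pos), h3, one_mul]
    have h5 : p ^ (N % k) - 1 = 0 := Nat.eq_zero_of_dvd_of_lt h2
      (Nat.sub_lt_sub_right (Nat.one_le_pow _ _ hp.pos)
        (Nat.pow_lt_pow_right hp.one_lt (Nat.mod_lt N hk)))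
    refine Nat.dvd_of_mod_eq_zero ?_
    by_contra hne
    have := Nat.one_lt_pow hne hp.one_lt
    omega
  have hpowd : ∀ j : ℕ, red r I (φ ^ j) 1 1 = red r I φ 1 1 ^ j := by
    intro j
    induction j with
    | zero => rw [pow_zero, map_one, pow_zero]; rfl
    | succ j ih => rw [pow_succ, red_mul_oo h I (pow_mem hφd j), ih, pow_succ]
  have hs1 : red r I s 1 1 = 1 := by
    show Ideal.Quotient.mk I (r s 1 1) = 1
    rw [h.unram s hs, map_one]
  obtain ⟨j, rfl⟩ := hdvd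
  rw [heq, red_mul_oo h I (pow_mem hφd _), hs1, mul_one, hpowd, pow_mul]
  have : red r I φ 1 1 ^ k = 1 := congrArg Units.val hkone
  rw [this, one_pow]

variable {I : Ideal R} {n : ℕ} (hI : ((p ^ n : ℕ) : R) ∈ I)

include hI

/-- The cocycle of a character is trivialised. -/
theorem exists_datum [Finite (R ⧸ I)] {f : ℕ} (hg : GoodDeg p A r I f) (ψ : AddChar (R ⧸ I) ℚb) :
    ∃ w k, Datum p A r I n ψ f w k := by
  obtain ⟨L, hL, -, hr⟩ := exists_galois_level h I
  have hne : ∀ x, ψ x ≠ 0 := fun x h0 => by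
    have := AddChar.map_add_eq_mul ψ x (-x)
    rw [add_neg_cancel, AddChar.map_zero_eq_one, h0, zero_mul] at this
    exact one_ne_zero this
  obtain ⟨w, hw0, hw⟩ := exists_apply_eq_mul (degGroup p A f) L (fun σ => ψ (red r I σ 0 1))
    (fun g hgm k hk => by
      show ψ (red r I (g * k) 0 1) = ψ (red r I g 0 1) * g (ψ (red r I k 0 1))
      rw [red_mul_zo h, hg.2 k hk, mul_one, apply_char h hI, red_det_eq h I hgm.1,
        hg.2 g hgm, mul_one, add_comm, AddChar.map_add_eq_mul])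
    (fun g _ => hne _) (fun s _ hs => by
      show ψ (red r I s 0 1) = 1
      rw [hr s hs, Matrix.one_apply_ne zero_ne_one, AddChar.map_zero_eq_one])
  have h0 : ((p ^ n : ℕ) : R ⧸ I) = 0 := by
    rw [← map_natCast (Ideal.Quotient.mk I), Ideal.Quotient.eq_zero_iff_mem]; exact hI
  obtain ⟨k, hk⟩ := NewVec.exists_val_eq_zpow_of_fixed (Fact.out : p.Prime) h.liesOver
    (x := w ^ p ^ n) (fun σ hσ => by
      rw [map_pow, hw σ (inertia_le_degGroup h.liesOver hg.1 hσ), mul_pow,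
        ← AddChar.map_nsmul_eq_pow, nsmul_eq_mul, h0, zero_mul, AddChar.map_zero_eq_one, one_mul])
    (pow_ne_zero _ hw0)
  exact ⟨w, k, hw0, hw, hk⟩

end Fermat.Agent.R59.Phi
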