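/-
S59, unit H: the class `c` in `R ⧸ I` of the valuation components of the extension at `p`, its
functoriality, and its invariance under the square of the unramified character.
-/
import Fermat.Agent.R59.Phi.Kummer

set_option autoImplicit false
set_option linter.style.haveILetI false
set_option linter.unusedSectionVars false

noncomputable section

namespace Fermat.Agent.R59.Phi

open IsLocalRing
open Fermat.Agent.Galois (GQ)
open Fermat.Agent.Deform (Mat2 mapHom)

local notation "ℚb" => AlgebraicClosure ℚ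

section Roots

variable (p : ℕ) [Fact p.Prime]

/-- Successive roots of a primitive `p`-th root of unity. -/
def zSeq : ℕ → ℚb
  | 0 => haveI : NeZero p := ⟨(Fact.out : p.Prime).ne_zero⟩
      (HasEnoughRootsOfUnity.exists_primitiveRoot ℚb p).choose
  | n + 1 => (IsAlgClosed.exists_pow_nat_eq (zSeq n) (Fact.out : p.Prime).pos).choose

theorem zSeq_succ_pow (n : ℕ) : zSeq p (n + 1) ^ p = zSeq p n :=
  (IsAlgClosed.exists_pow_nat_eq (zSeq p n) (Fact.out : p.Prime).pos).choose_spec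

theorem isPrimitiveRoot_zSeq (n : ℕ) : IsPrimitiveRoot (zSeq p n) (p ^ (n + 1)) := by
  haveI : NeZero p := ⟨(Fact.out : p.Prime).ne_zero⟩
  induction n with
  | zero =>
    rw [zero_add, pow_one]
    exact (HasEnoughRootsOfUnity.exists_primitiveRoot ℚb p).choose_spec
  | succ n ih =>
    rw [IsPrimitiveRoot.iff_orderOf]
    refine orderOf_eq_prime_pow (fun h1 => ?_) ?_
    · refine ih.pow_ne_one_of_pos_of_lt (pow_ne_zero n (Fact.out : p.Prime).ne_zero)
        (Nat.pow_lt_pow_right (Fact.out : p.Prime).one_lt (Nat.lt_succ_self n)) ?_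
      rw [← zSeq_succ_pow, ← pow_mul, ← pow_succ']
      exact h1
    · rw [pow_succ', pow_mul, zSeq_succ_pow, ih.pow_eq_one]

/-- Compatible primitive roots of unity of order `p ^ n`. -/
def zRoot (n : ℕ) : ℚb := zSeq p n ^ p

theorem isPrimitiveRoot_zRoot (n : ℕ) : IsPrimitiveRoot (zRoot p n) (p ^ n) :=
  (isPrimitiveRoot_zSeq p n).pow (pow_pos (Fact.out : p.Prime).pos _) (pow_succ' p n)

theorem zRoot_succ_pow (n : ℕ) : zRoot p (n + 1) ^ p = zRoot p n := by
  rw [zRoot, zRoot, zSeq_succ_pow]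

theorem zRoot_ne_zero (n : ℕ) : zRoot p n ≠ 0 :=
  (isPrimitiveRoot_zRoot p n).ne_zero (pow_ne_zero n (Fact.out : p.Prime).ne_zero)

end Roots

/-- The characters of a finite additive group separate points. -/
theorem eq_of_forall_char {G : Type} [AddCommGroup G] [Finite G] {x y : G}
    (h : ∀ ψ : AddChar G ℚb, ψ x = ψ y) : x = y := by
  haveI : NeZero (Monoid.exponent (Multiplicative G)) := ⟨Monoid.exponent_ne_zero_of_finite⟩
  refine Multiplicative.ofAdd.injective
    ((CommGroup.forall_apply_eq_apply_iff (Multiplicative G) (M := ℚb)).mp fun φ => Units.ext ?_)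
  exact h (AddChar.toMonoidHomEquiv.symm ((Units.coeHom ℚb).comp φ))

/-- A character of the dual is evaluation at a point. -/
theorem exists_eval_eq {G : Type} [AddCommGroup G] [Finite G] (E : AddChar G ℚb → ℚb)
    (hE : ∀ ψ ψ', E (ψ * ψ') = E ψ * E ψ') (hne : ∀ ψ, E ψ ≠ 0) :
    ∃ c : G, ∀ ψ : AddChar G ℚb, ψ c = E ψ := by
  haveI : NeZero (Monoid.exponent (Multiplicative G)) := ⟨Monoid.exponent_ne_zero_of_finite⟩
  let toChar : (Multiplicative G →* ℚbˣ) → AddChar G ℚb := fun φ =>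
    AddChar.toMonoidHomEquiv.symm ((Units.coeHom ℚb).comp φ)
  have hmul : ∀ φ φ', toChar (φ * φ') = toChar φ * toChar φ' := fun φ φ' => rfl
  have hone : E 1 = 1 := by
    have h1 := hE 1 1
    rw [one_mul] at h1
    exact (mul_eq_left₀ (hne 1)).mp h1.symm
  let η : (Multiplicative G →* ℚbˣ) →* ℚbˣ :=
    { toFun := fun φ => Units.mk0 (E (toChar φ)) (hne _)
      map_one' := Units.ext hone
      map_mul' := fun φ φ' => Units.ext (by
        rw [Units.val_mul, Units.val_mk0, Units.val_mk0, Units.val_mk0, hmul, hE]) }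
  refine ⟨Multiplicative.toAdd (CommGroup.monoidHomMonoidHomEquiv (Multiplicative G) ℚb η),
    fun ψ => ?_⟩
  have h1 := congrArg Units.val
    (CommGroup.apply_monoidHomMonoidHomEquiv (M := ℚb) (ψ.toMonoidHom.toHomUnits) η)
  refine Eq.trans ?_ (h1.trans (congrArg E (AddChar.ext _ _ fun x => rfl)))
  rfl

variable {R : Type} [CommRing R] {p : ℕ} [Fact p.Prime] {A : ValuationSubring (AlgebraicClosure ℚ)}
  {r : GQ →* Mat2 R}

theorem val_p_ne_zero : A.valuation (p : ℚb) ≠ 0 :=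
  (map_ne_zero _).mpr (Nat.cast_ne_zero.mpr (Fact.out : p.Prime).ne_zero)

theorem val_p_zpow_injective (hA : A.LiesOverPrime p) :
    Function.Injective fun k : ℤ => A.valuation (p : ℚb) ^ k := by
  have h1 : A.valuation (p : ℚb) < 1 := (ValuationSubring.mem_nonunits_iff A).1 hA
  exact (zpow_right_strictAnti₀ (zero_lt_iff.mpr val_p_ne_zero) h1).injective

/-- Powers of a primitive root. -/
theorem zRoot_zpow_mul (n : ℕ) (j : ℤ) : zRoot p n ^ (((p ^ n : ℕ) : ℤ) * j) = 1 := by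
  rw [zpow_mul, zpow_natCast, (isPrimitiveRoot_zRoot p n).pow_eq_one, one_zpow]

variable (h : OrdAt p A r) {I : Ideal R} {n : ℕ}

theorem Datum.mul {ψ ψ' : AddChar (R ⧸ I) ℚb} {f : ℕ} {w w' : ℚb} {k k' : ℤ}
    (d : Datum p A r I n ψ f w k) (d' : Datum p A r I n ψ' f w' k') :
    Datum p A r I n (ψ * ψ') f (w * w') (k + k') :=
  ⟨mul_ne_zero d.ne d'.ne, fun σ hσ => by
    rw [map_mul, d.cocycle σ hσ, d'.cocycle σ hσ, AddChar.mul_apply]; ring,
   by rw [mul_pow, map_mul, d.val, d'.val, zpow_add₀ val_p_ne_zero]⟩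

include h

theorem Datum.root_eq {ψ : AddChar (R ⧸ I) ℚb} {f f' : ℕ} {w w' : ℚb} {k k' : ℤ}
    (hg : GoodDeg p A r I f) (hg' : GoodDeg p A r I f')
    (d : Datum p A r I n ψ f w k) (d' : Datum p A r I n ψ f' w' k') :
    zRoot p n ^ k = zRoot p n ^ k' := by
  have hfix : ∀ σ ∈ A.inertiaSubgroupIn ℚ, σ (w' / w) = w' / w := fun σ hσ => by
    have h1 := inertia_le_degGroup h.liesOver (Nat.mul_pos hg.1 hg'.1) hσ
    have h2 : σ w = ψ (red r I σ 0 1) * w := d.cocycle σ (degGroup_anti (dvd_mul_right f f') h1)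
    have h3 : σ w' = ψ (red r I σ 0 1) * w' := d'.cocycle σ (degGroup_anti (dvd_mul_left f' f) h1)
    have h4 : ψ (red r I σ 0 1) ≠ 0 := fun h0 => d.ne (σ.injective (by rw [h2, h0, zero_mul, map_zero]))
    rw [map_div₀, h2, h3, mul_div_mul_left _ _ h4]
  obtain ⟨j, hj⟩ := NewVec.exists_val_eq_zpow_of_fixed (Fact.out : p.Prime) h.liesOver hfix
    (div_ne_zero d'.ne d.ne)
  have hk : k' = k + ((p ^ n : ℕ) : ℤ) * j := by
    refine val_p_zpow_injective h.liesOver ?_
    show A.valuation (p : ℚb) ^ k' = A.valuation (p : ℚb) ^ _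
    rw [zpow_add₀ val_p_ne_zero, mul_comm ((p ^ n : ℕ) : ℤ) j, zpow_mul, zpow_natCast, ← hj,
      ← d.val, ← d'.val, ← map_pow, ← map_mul, div_pow, mul_div_cancel₀ _ (pow_ne_zero _ d.ne)]
  rw [hk, zpow_add₀ (zRoot_ne_zero p n), zRoot_zpow_mul, mul_one]

omit h

variable (p A r) in
/-- `c` is the class of the valuation components modulo `I` at level `n`. -/
def IsKClass (I : Ideal R) (n : ℕ) (c : R ⧸ I) : Prop :=
  ∀ (ψ : AddChar (R ⧸ I) ℚb) (f : ℕ) (w : ℚb) (k : ℤ), GoodDeg p A r I f →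
    Datum p A r I n ψ f w k → ψ c = zRoot p n ^ k

include h

theorem exists_isKClass [Finite (R ⧸ I)] (hI : ((p ^ n : ℕ) : R) ∈ I) :
    ∃ c, IsKClass p A r I n c := by
  obtain ⟨f₀, hf₀⟩ := exists_goodDeg h I
  choose w k hd using fun ψ => exists_datum h hI hf₀ ψ
  obtain ⟨c, hc⟩ := exists_eval_eq (fun ψ => zRoot p n ^ k ψ) (fun ψ ψ' => by
    show zRoot p n ^ k (ψ * ψ') = zRoot p n ^ k ψ * zRoot p n ^ k ψ'
    rw [← zpow_add₀ (zRoot_ne_zero p n)]
    exact (hd _).root_eq h hf₀ hf₀ ((hd ψ).mul (hd ψ')))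
    fun ψ => zpow_ne_zero _ (zRoot_ne_zero p n)
  exact ⟨c, fun ψ f w' k' hg hd' => (hc ψ).trans ((hd ψ).root_eq h hf₀ hg hd')⟩

theorem IsKClass.unique [Finite (R ⧸ I)] (hI : ((p ^ n : ℕ) : R) ∈ I) {c c' : R ⧸ I}
    (hc : IsKClass p A r I n c) (hc' : IsKClass p A r I n c') : c = c' := by
  refine eq_of_forall_char fun ψ => ?_
  obtain ⟨f, hf⟩ := exists_goodDeg h I
  obtain ⟨w, k, hd⟩ := exists_datum h hI hf ψ
  rw [hc ψ f w k hf hd, hc' ψ f w k hf hd]

/-- The class is functorial in the ideal. -/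
theorem IsKClass.factor [Finite (R ⧸ I)] {J : Ideal R} (hIJ : I ≤ J) {c : R ⧸ I}
    (hc : IsKClass p A r I n c) : IsKClass p A r J n (Ideal.Quotient.factor hIJ c) := by
  intro ψ f w k hg hd
  obtain ⟨f₀, hf₀⟩ := exists_goodDeg h I
  have h1 : GoodDeg p A r I (f₀ * f) := hf₀.mul_left hg.1
  have h2 : Datum p A r I n (ψ.compAddMonoidHom (Ideal.Quotient.factor hIJ).toAddMonoidHom)
      (f₀ * f) w k :=
    ⟨hd.ne, fun σ hσ => hd.cocycle σ (degGroup_anti (dvd_mul_left f f₀) hσ), hd.val⟩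
  exact hc _ _ _ _ h1 h2

omit h in
/-- The class does not depend on the level. -/
theorem IsKClass.of_succ {c : R ⧸ I} (hc : IsKClass p A r I (n + 1) c) :
    IsKClass p A r I n c := by
  intro ψ f w k hg hd
  have h2 : Datum p A r I (n + 1) ψ f w ((p : ℤ) * k) :=
    ⟨hd.ne, hd.cocycle, by
      rw [pow_succ, pow_mul, map_pow, hd.val, mul_comm (p : ℤ) k, zpow_mul, zpow_natCast]⟩
  rw [hc ψ f w _ hg h2, zpow_mul, zpow_natCast, zRoot_succ_pow]

omit h in
theorem IsKClass.of_le {m : ℕ} {c : R ⧸ I} (hnm : n ≤ m) (hc : IsKClass p A r I m c) :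
    IsKClass p A r I n c := by
  induction hnm with
  | refl => exact hc
  | step _ ih => exact ih hc.of_succ

/-- Frobenius equivariance: the class is invariant under the square of the unramified character. -/
theorem IsKClass.smul_eq [Finite (R ⧸ I)] (hI : ((p ^ n : ℕ) : R) ∈ I) {c : R ⧸ I}
    (hc : IsKClass p A r I n c) {φ : GQ} (hφ : φ ∈ A.decompositionSubgroup ℚ) :
    red r I φ 1 1 ^ 2 * c = c := by
  refine eq_of_forall_char fun ψ => ?_
  obtain ⟨f, hf⟩ := exists_goodDeg h I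
  obtain ⟨w, k, hd⟩ := exists_datum h hI hf ψ
  rw [hc ψ f w k hf hd]
  set aφ := red r I φ 0 0 with haφ
  set bφ := red r I φ 0 1 with hbφ
  set dφ := red r I φ 1 1 with hdφ
  let μ : AddChar (R ⧸ I) ℚb := ψ.mulShift (dφ ^ 2)
  set z : ℚb := ψ (dφ * bφ) with hz
  have hne : ∀ x, ψ x ≠ 0 := fun x h0 => by
    have := AddChar.map_add_eq_mul ψ x (-x)
    rw [add_neg_cancel, AddChar.map_zero_eq_one, h0, zero_mul] at this
    exact one_ne_zero this
  have h2 : Datum p A r I n μ f (φ w / z) k := by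
    refine ⟨div_ne_zero (fun h0 => hd.ne (φ.injective (h0.trans (map_zero φ).symm))) (hne _),
      fun σ hσ => ?_, ?_⟩
    · set σ' := φ⁻¹ * σ * φ with hσ'
      have hσ'm : σ' ∈ degGroup p A f := conj_mem_degGroup hφ hσ
      have hcomm : σ * φ = φ * σ' := by rw [hσ']; group
      have hmat := congrArg (fun M : Mat2 (R ⧸ I) => M 0 1) (congrArg (red r I) hcomm)
      simp only [red_mul_zo h] at hmat
      rw [hf.2 σ' hσ'm, mul_one, ← haφ, ← hbφ, ← hdφ] at hmat
      have hw : σ (φ w) = ψ ((red r I φ).det * red r I σ' 0 1) * φ w := by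
        rw [← AlgEquiv.mul_apply, hcomm, AlgEquiv.mul_apply, hd.cocycle σ' hσ'm, map_mul,
          apply_char h hI]
      have hσz : σ z = ψ (red r I σ 0 0 * (dφ * bφ)) := by
        rw [hz, apply_char h hI, red_det_eq h I hσ.1, hf.2 σ hσ, mul_one]
      have key : (red r I φ).det * red r I σ' 0 1 + dφ * bφ =
          dφ ^ 2 * red r I σ 0 1 + red r I σ 0 0 * (dφ * bφ) := by
        rw [red_det_eq h I hφ, ← haφ, ← hdφ]
        linear_combination -dφ * hmat
      have key' := congrArg ψ key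
      rw [AddChar.map_add_eq_mul, AddChar.map_add_eq_mul] at key'
      rw [map_div₀, hw, hσz, AddChar.mulShift_apply, div_eq_iff (hne _)]
      rw [show ψ (dφ ^ 2 * red r I σ 0 1) * (φ w / z) * ψ (red r I σ 0 0 * (dφ * bφ)) =
        (ψ (dφ ^ 2 * red r I σ 0 1) * ψ (red r I σ 0 0 * (dφ * bφ))) / z * φ w by ring,
        ← key', hz, mul_div_cancel_right₀ _ (hne _)]
    · have h0 : ((p ^ n : ℕ) : R ⧸ I) = 0 := by
        rw [← map_natCast (Ideal.Quotient.mk I), Ideal.Quotient.eq_zero_iff_mem]; exact hI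
      rw [hz, div_pow, ← AddChar.map_nsmul_eq_pow, nsmul_eq_mul, h0, zero_mul,
        AddChar.map_zero_eq_one, div_one, ← map_pow, Galois.valuation_apply_eq hφ, hd.val]
  have := hc μ f _ k hf h2
  rwa [AddChar.mulShift_apply] at this

/-- When the class vanishes the cocycles are trivialised by units. -/
theorem IsKClass.exists_unit [Finite (R ⧸ I)] (hI : ((p ^ n : ℕ) : R) ∈ I)
    (hc : IsKClass p A r I n 0) {f : ℕ} (hf : GoodDeg p A r I f) (ψ : AddChar (R ⧸ I) ℚb) :
    ∃ w : ℚb, A.valuation w = 1 ∧ ∀ σ ∈ degGroup p A f, σ w = ψ (red r I σ 0 1) * w := by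
  obtain ⟨w, k, hd⟩ := exists_datum h hI hf ψ
  obtain ⟨j, hj⟩ := ((isPrimitiveRoot_zRoot p n).zpow_eq_one_iff_dvd k).mp
    ((hc ψ f w k hf hd).symm.trans (AddChar.map_zero_eq_one ψ))
  refine ⟨w / (p : ℚb) ^ j, ?_, fun σ hσ => ?_⟩
  · have h1 : A.valuation (w / (p : ℚb) ^ j) ^ p ^ n = 1 := by
      rw [map_div₀, map_zpow₀, div_pow, ← map_pow, hd.val, hj, ← zpow_natCast
        (A.valuation (p : ℚb) ^ j), ← zpow_mul, mul_comm j, div_self]
      exact zpow_ne_zero _ val_p_ne_zero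
    exact (pow_eq_one_iff_of_nonneg zero_le (pow_ne_zero n (Fact.out : p.Prime).ne_zero)).mp h1
  · rw [map_div₀, map_zpow₀, map_natCast, hd.cocycle σ hσ, mul_div_assoc]

end Fermat.Agent.R59.Phi
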