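/-
S59, unit H: a module embedding equivariantly in two modules with finite flat models has one.
-/
import Fermat.Agent.MCurve.Flat.Closure

set_option autoImplicit false
set_option linter.style.haveILetI false
set_option linter.unusedSectionVars false

noncomputable section

namespace Fermat.Agent.R59.Phi

open Fermat.Agent.MCurve.Flat
open Fermat.Agent.Galois (GQ)

local notation "ℚb" => AlgebraicClosure ℚ

variable {ℓ : ℕ} [Fact ℓ.Prime] {A : ValuationSubring (AlgebraicClosure ℚ)}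

/-- Pulling back along an additive map keeps the flip inside the algebra of coordinates. -/
theorem flip_comap {M M' : Type} [AddCommGroup M] [DistribMulAction GQ M] [AddCommGroup M']
    (C : IntCoords M A ℓ) (j : M' →+ M) (i : C.ι) {T : Subalgebra A (M' × M' → A)}
    (h1 : ∀ k, (fun z : M' × M' => C.φ k (j z.1)) ∈ T)
    (h2 : ∀ k, (fun z : M' × M' => C.φ k (j z.2)) ∈ T) :
    (fun z : M' × M' => C.φ i (j (-(z.1 + z.2)))) ∈ T := by
  let ev : (M × M → A) →ₐ[A] (M' × M' → A) :=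
    { toFun := fun F z => F (j z.1, j z.2)
      map_one' := rfl
      map_mul' := fun _ _ => rfl
      map_zero' := rfl
      map_add' := fun _ _ => rfl
      commutes' := fun _ => rfl }
  have h := (Subalgebra.mem_map (f := ev)).mpr ⟨_, C.flip i, rfl⟩
  rw [AlgHom.map_adjoin] at h
  have he : ev (fun z : M × M => C.φ i (-(z.1 + z.2))) =
      fun z : M' × M' => C.φ i (j (-(z.1 + z.2))) := funext fun z => by
    show C.φ i (-(j z.1 + j z.2)) = _
    rw [map_neg, map_add]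
  rw [he] at h
  refine Algebra.adjoin_le ?_ h
  rintro _ ⟨F, ⟨k, rfl⟩ | ⟨k, rfl⟩, rfl⟩
  · exact h1 k
  · exact h2 k

/-- A module embedding equivariantly in two modules with finite flat models has one. -/
theorem hasFlatModel_of_pair {M₁ M₂ M' : Type} [AddCommGroup M₁] [DistribMulAction GQ M₁] [Finite M₁]
    [AddCommGroup M₂] [DistribMulAction GQ M₂] [Finite M₂] [AddCommGroup M'] [DistribMulAction GQ M']
    [Finite M'] (h₁ : HasFlatModel M₁ ℓ) (h₂ : HasFlatModel M₂ ℓ) (j₁ : M' →+ M₁) (j₂ : M' →+ M₂)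
    (hj₁ : ∀ (σ : GQ) v, j₁ (σ • v) = σ • j₁ v) (hj₂ : ∀ (σ : GQ) v, j₂ (σ • v) = σ • j₂ v)
    (hinj : ∀ v, j₁ v = 0 → j₂ v = 0 → v = 0) : HasFlatModel M' ℓ := by
  obtain ⟨A, hA⟩ := Galois.exists_liesOverPrime (Fact.out : ℓ.Prime)
  obtain ⟨C⟩ := exists_intCoords_of_hasFlatModel h₁ hA
  obtain ⟨D⟩ := exists_intCoords_of_hasFlatModel h₂ hA
  letI := C.fintype_ι
  letI := D.fintype_ι
  refine hasFlatModel_of_intCoords hA (C := ({
    ι := C.ι ⊕ D.ι
    fintype_ι := inferInstance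
    φ := Sum.elim (fun i v => C.φ i (j₁ v)) fun i v => D.φ i (j₂ v)
    sep := fun v w hvw => sub_eq_zero.mp (hinj _ ?_ ?_)
    f := C.f * D.f
    f_pos := Nat.mul_pos C.f_pos D.f_pos
    equiv := fun σ hσ hζ => ?_
    isOpen_stab := ?_
    flip := ?_ } : IntCoords M' A ℓ))
  · rw [map_sub, sub_eq_zero]
    exact C.sep (funext fun i => congrFun hvw (Sum.inl i))
  · rw [map_sub, sub_eq_zero]
    exact D.sep (funext fun i => congrFun hvw (Sum.inr i))
  · rintro (i | i) v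
    · show (C.φ i (j₁ (σ • v)) : ℚb) = σ (C.φ i (j₁ v))
      rw [hj₁, C.equiv σ hσ fun ζ h => hζ ζ ?_]
      obtain ⟨e, he⟩ := Nat.pow_sub_one_dvd_pow_sub_one ℓ (dvd_mul_right C.f D.f)
      rw [he, pow_mul, h, one_pow]
    · show (D.φ i (j₂ (σ • v)) : ℚb) = σ (D.φ i (j₂ v))
      rw [hj₂, D.equiv σ hσ fun ζ h => hζ ζ ?_]
      obtain ⟨e, he⟩ := Nat.pow_sub_one_dvd_pow_sub_one ℓ (dvd_mul_left D.f C.f)
      rw [he, pow_mul, h, one_pow]
  · obtain ⟨L, hL, h1⟩ := C.isOpen_stab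
    obtain ⟨L', hL', h2⟩ := D.isOpen_stab
    refine ⟨L ⊔ L', inferInstance, fun σ hσ v => sub_eq_zero.mp (hinj _ ?_ ?_)⟩
    · rw [map_sub, hj₁, h1 σ (fun x hx => hσ x ((le_sup_left : L ≤ L ⊔ L') hx)), sub_self]
    · rw [map_sub, hj₂, h2 σ (fun x hx => hσ x ((le_sup_right : L' ≤ L ⊔ L') hx)), sub_self]
  · rintro (i | i)
    · exact flip_comap C j₁ i (fun k => Algebra.subset_adjoin (R := A) (Or.inl ⟨Sum.inl k, rfl⟩))
        fun k => Algebra.subset_adjoin (R := A) (Or.inr ⟨Sum.inl k, rfl⟩)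
    · exact flip_comap D j₂ i (fun k => Algebra.subset_adjoin (R := A) (Or.inl ⟨Sum.inr k, rfl⟩))
        fun k => Algebra.subset_adjoin (R := A) (Or.inr ⟨Sum.inr k, rfl⟩)

end Fermat.Agent.R59.Phi
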