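/-
S59, unit H: the levels of a matrix representation as Galois modules, and the finite flat model of a
level at which the class of the valuation components vanishes.
-/
import Fermat.Agent.R59.Phi.KummerClass
import Fermat.Agent.R59.Phi.Pair
import Fermat.Agent.MCurve.Flat.Order

set_option autoImplicit false
set_option linter.style.haveILetI false
set_option linter.unusedSectionVars false

noncomputable section

namespace Fermat.Agent.R59.Phi

open Matrix
open Fermat.Agent.Galois (GQ)
open Fermat.Agent.MCurve.Flat (HasFlatModel IntCoords hasFlatModel_of_intCoords)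
open Fermat.Agent.Deform (Mat2 mapHom)

local notation "ℚb" => AlgebraicClosure ℚ

variable {R : Type} [CommRing R]

/-- The reduction modulo `I` of a matrix representation, as a Galois module. -/
def LevMod (_r : GQ →* Mat2 R) (I : Ideal R) : Type := Fin 2 → R ⧸ I

instance (r : GQ →* Mat2 R) (I : Ideal R) : AddCommGroup (LevMod r I) :=
  inferInstanceAs (AddCommGroup (Fin 2 → R ⧸ I))

instance (r : GQ →* Mat2 R) (I : Ideal R) [Finite (R ⧸ I)] : Finite (LevMod r I) :=
  inferInstanceAs (Finite (Fin 2 → R ⧸ I))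

/-- The action on a level. -/
@[reducible] def levAct (r : GQ →* Mat2 R) (I : Ideal R) : DistribMulAction GQ (LevMod r I) where
  smul σ x := red r I σ *ᵥ x
  one_smul x := by show red r I 1 *ᵥ x = x; rw [map_one, one_mulVec]
  mul_smul σ τ x := by
    show red r I (σ * τ) *ᵥ x = red r I σ *ᵥ (red r I τ *ᵥ x)
    rw [map_mul, mulVec_mulVec]
  smul_zero σ := mulVec_zero _
  smul_add σ x y := mulVec_add _ x y

/-- A level has a finite flat model at `p`. -/
def FlatLev (p : ℕ) (r : GQ →* Mat2 R) (I : Ideal R) : Prop :=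
  letI := levAct r I
  HasFlatModel (LevMod r I) p

variable {p : ℕ} [Fact p.Prime] {A : ValuationSubring (AlgebraicClosure ℚ)} {r : GQ →* Mat2 R}

theorem flatLev_mono {I J : Ideal R} [Finite (R ⧸ I)] (hIJ : I ≤ J) (hI : FlatLev p r I) :
    FlatLev p r J := by
  letI := levAct r I
  letI := levAct r J
  let π := Ideal.Quotient.factor hIJ
  refine HasFlatModel.of_surjective (M := LevMod r I) hI (Q := LevMod r J)
    (π.toAddMonoidHom.compLeft (Fin 2)) (fun σ x => funext fun i => ?_) fun y => ?_
  · show π ((red r I σ *ᵥ x) i) = _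
    rw [RingHom.map_mulVec]
    rfl
  · choose x hx using fun i => Ideal.Quotient.factor_surjective hIJ (y i)
    exact ⟨x, funext hx⟩

theorem flatLev_inf {I J : Ideal R} [Finite (R ⧸ I)] [Finite (R ⧸ J)] [Finite (R ⧸ (I ⊓ J))]
    (hI : FlatLev p r I) (hJ : FlatLev p r J) : FlatLev p r (I ⊓ J) := by
  letI := levAct r I
  letI := levAct r J
  letI := levAct r (I ⊓ J)
  let π := Ideal.Quotient.factor (inf_le_left : I ⊓ J ≤ I)
  let π' := Ideal.Quotient.factor (inf_le_right : I ⊓ J ≤ J)
  refine hasFlatModel_of_pair (M₁ := LevMod r I) (M₂ := LevMod r J) (M' := LevMod r (I ⊓ J)) hI hJ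
    (π.toAddMonoidHom.compLeft (Fin 2)) (π'.toAddMonoidHom.compLeft (Fin 2))
    (fun σ x => funext fun i => ?_) (fun σ x => funext fun i => ?_)
    fun v hv hv' => funext fun i => ?_
  · show π ((red r (I ⊓ J) σ *ᵥ x) i) = _
    rw [RingHom.map_mulVec]
    rfl
  · show π' ((red r (I ⊓ J) σ *ᵥ x) i) = _
    rw [RingHom.map_mulVec]
    rfl
  · obtain ⟨y, hy⟩ := Ideal.Quotient.mk_surjective (v i)
    have h1 : π (v i) = 0 := congrFun hv i
    have h2 : π' (v i) = 0 := congrFun hv' i
    rw [← hy, Ideal.Quotient.factor_mk, Ideal.Quotient.eq_zero_iff_mem] at h1 h2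
    rw [← hy]
    exact Ideal.Quotient.eq_zero_iff_mem.mpr ⟨h1, h2⟩

/-- Powers of characters of finite order lie in the valuation ring. -/
theorem char_mem {I : Ideal R} [Finite (R ⧸ I)] (ψ : AddChar (R ⧸ I) ℚb) (x : R ⧸ I) : ψ x ∈ A := by
  have hn : 0 < Nat.card (R ⧸ I) := Nat.card_pos
  have h1 : ψ x ^ Nat.card (R ⧸ I) = 1 := by
    rw [← AddChar.map_nsmul_eq_pow, card_nsmul_eq_zero', AddChar.map_zero_eq_one]
  exact Galois.integralClosure_le A ⟨ψ x, IsIntegral.of_pow hn (h1 ▸ isIntegral_one)⟩

variable (h : OrdAt p A r) {I : Ideal R} {n : ℕ}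

include h

/-- A level with vanishing class is flat. -/
theorem flatLev_of_isKClass [Finite (R ⧸ I)] (hI : ((p ^ n : ℕ) : R) ∈ I)
    (hc : IsKClass p A r I n 0) : FlatLev p r I := by
  classical
  letI := levAct r I
  show HasFlatModel (LevMod r I) p
  haveI := Fintype.ofFinite (R ⧸ I)
  haveI : Finite (AddChar (R ⧸ I) ℚb) := by
    refine Finite.of_injective (fun ψ x => (⟨ψ x, ?_⟩ :
      {z : ℚb // z ∈ (Polynomial.nthRootsFinset (p ^ n) (1 : ℚb))})) fun ψ ψ' e =>
      DFunLike.ext _ _ fun x => congrArg Subtype.val (congrFun e x)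
    rw [Polynomial.mem_nthRootsFinset (pow_pos (Fact.out : p.Prime).pos n),
      ← AddChar.map_nsmul_eq_pow, nsmul_eq_mul]
    rw [show ((p ^ n : ℕ) : R ⧸ I) = 0 by
      rw [← map_natCast (Ideal.Quotient.mk I), Ideal.Quotient.eq_zero_iff_mem]; exact hI,
      zero_mul, AddChar.map_zero_eq_one]
  haveI := Fintype.ofFinite (AddChar (R ⧸ I) ℚb)
  obtain ⟨f, hf⟩ := exists_goodDeg h I
  choose w hw hwσ using fun ψ => hc.exists_unit h hI hf ψ
  have hwA : ∀ ψ, w ψ ∈ A := fun ψ => (A.valuation_le_one_iff _).mp (hw ψ).le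
  -- the coordinates
  let tw : (R ⧸ I) × AddChar (R ⧸ I) ℚb → AddChar (R ⧸ I) ℚb := fun i => i.2.mulShift i.1
  let coord : (R ⧸ I) × AddChar (R ⧸ I) ℚb → LevMod r I → A := fun i x =>
    if x 1 = i.1 then ⟨i.2 (x 0) * w (tw i), mul_mem (char_mem i.2 _) (hwA _)⟩ else 0
  let ind : (R ⧸ I) → LevMod r I → A := fun m x => if x 1 = m then 1 else 0
  have hact : ∀ σ ∈ degGroup p A f, ∀ x : LevMod r I, (σ • x) 1 = x 1 ∧
      (σ • x) 0 = (red r I σ).det * x 0 + red r I σ 0 1 * x 1 := fun σ hσ x => by
    constructor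
    · show (red r I σ *ᵥ x) 1 = _
      rw [mulVec, dotProduct, Fin.sum_univ_two, red_low h I hσ.1, zero_mul, zero_add, hf.2 σ hσ,
        one_mul]
    · show (red r I σ *ᵥ x) 0 = _
      rw [mulVec, dotProduct, Fin.sum_univ_two, red_det_eq h I hσ.1, hf.2 σ hσ, mul_one]
  refine hasFlatModel_of_intCoords h.liesOver (C := ({
    ι := ((R ⧸ I) × AddChar (R ⧸ I) ℚb) ⊕ (R ⧸ I)
    fintype_ι := inferInstance
    φ := Sum.elim coord ind
    sep := fun x y hxy => ?_
    f := f
    f_pos := hf.1
    equiv := fun σ hσ hζ => ?_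
    isOpen_stab := ?_
    flip := ?_ } : IntCoords (LevMod r I) A p))
  · have h1 : x 1 = y 1 := by
      have := congrFun hxy (Sum.inr (y 1))
      simp only [Sum.elim_inr, ind, if_true] at this
      by_contra hne
      rw [if_neg hne] at this
      exact zero_ne_one this
    refine funext (Fin.forall_fin_two.mpr ⟨eq_of_forall_char fun ψ => ?_, h1⟩)
    have h2 := congrArg Subtype.val (congrFun hxy (Sum.inl (y 1, ψ)))
    simp only [Sum.elim_inl, coord, h1, if_true] at h2
    refine mul_right_cancel₀ (fun h0 => ?_) h2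
    have := hw (tw (y 1, ψ))
    rw [h0, map_zero] at this
    exact zero_ne_one this
  · have hσg : σ ∈ degGroup p A f := ⟨hσ, hζ⟩
    rintro (⟨m, ψ⟩ | m) x
    · show ((coord (m, ψ) (σ • x) : A) : ℚb) = σ (coord (m, ψ) x)
      simp only [coord, (hact σ hσg x).1, (hact σ hσg x).2]
      split_ifs with hm
      · show ψ _ * w _ = σ (ψ (x 0) * w _)
        rw [map_mul, apply_char h hI, hwσ _ σ hσg, AddChar.mulShift_apply, AddChar.map_add_eq_mul,
          hm, mul_comm (red r I σ 0 1) m, mul_assoc]
      · exact (map_zero σ).symm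
    · show ((ind m (σ • x) : A) : ℚb) = σ (ind m x)
      simp only [ind, (hact σ hσg x).1]
      split_ifs
      · exact (map_one σ).symm
      · exact (map_zero σ).symm
  · obtain ⟨L, hL, hr⟩ := h.cts I inferInstance
    refine ⟨L, hL, fun σ hσ x => ?_⟩
    show red r I σ *ᵥ x = x
    rw [hr σ hσ, one_mulVec]
  · have hn : ∀ (a b : LevMod r I) (i : Fin 2), (-(a + b)) i = -(a i + b i) := fun _ _ _ => rfl
    set T : Subalgebra A (LevMod r I × LevMod r I → A) := Algebra.adjoin A
      (Set.range (fun j => fun z : LevMod r I × LevMod r I => Sum.elim coord ind j z.1) ∪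
        Set.range fun j => fun z : LevMod r I × LevMod r I => Sum.elim coord ind j z.2) with hT
    rintro (⟨m, ψ⟩ | m)
    · let u : (R ⧸ I) → A := fun a => ⟨w (tw (m, ψ)) / (w (tw (a, ψ⁻¹)) * w (tw (-m - a, ψ⁻¹))),
        (A.valuation_le_one_iff _).mp (by rw [map_div₀, map_mul, hw, hw, hw, one_mul, div_one])⟩
      have key : (fun z : LevMod r I × LevMod r I => coord (m, ψ) (-(z.1 + z.2))) =
          ∑ a, u a • ((fun z => coord (a, ψ⁻¹) z.1) * fun z => coord (-m - a, ψ⁻¹) z.2) := by
        funext z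
        rw [Finset.sum_apply, Finset.sum_eq_single (z.1 1) (fun a _ ha => ?_)
          (fun h0 => absurd (Finset.mem_univ _) h0)]
        · refine Subtype.ext ?_
          simp only [Pi.smul_apply, Pi.mul_apply, coord, if_true, hn]
          by_cases hm : z.2 1 = -m - z.1 1
          · rw [if_pos (show -(z.1 1 + z.2 1) = m by rw [hm]; abel), if_pos hm]
            simp only [smul_eq_mul, MulMemClass.coe_mul, u]
            rw [AddChar.map_neg_eq_inv, AddChar.map_add_eq_mul, AddChar.inv_apply,
              AddChar.map_neg_eq_inv, AddChar.inv_apply, AddChar.map_neg_eq_inv]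
            have hne : ∀ ψ, w ψ ≠ 0 := fun ψ h0 => by
              have := hw ψ
              rw [h0, map_zero] at this
              exact zero_ne_one this
            field_simp [hne]
          · rw [if_neg fun h0 => hm (by rw [← h0]; abel), if_neg hm]
            simp
        · simp only [Pi.smul_apply, Pi.mul_apply, coord]
          rw [if_neg (Ne.symm ha), zero_mul, smul_zero]
      show (fun z : LevMod r I × LevMod r I => coord (m, ψ) (-(z.1 + z.2))) ∈ T
      rw [key]
      exact Subalgebra.sum_mem _ fun a _ => T.smul_mem (T.mul_mem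
        (Algebra.subset_adjoin (Or.inl ⟨Sum.inl (a, ψ⁻¹), rfl⟩))
        (Algebra.subset_adjoin (Or.inr ⟨Sum.inl (-m - a, ψ⁻¹), rfl⟩))) _
    · have key : (fun z : LevMod r I × LevMod r I => ind m (-(z.1 + z.2))) =
          ∑ a, (fun z : LevMod r I × LevMod r I => ind a z.1) * fun z => ind (-m - a) z.2 := by
        funext z
        rw [Finset.sum_apply, Finset.sum_eq_single (z.1 1) (fun a _ ha => ?_)
          (fun h0 => absurd (Finset.mem_univ _) h0)]
        · simp only [Pi.mul_apply, ind, if_true, one_mul, hn]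
          by_cases hm : z.2 1 = -m - z.1 1
          · rw [if_pos (show -(z.1 1 + z.2 1) = m by rw [hm]; abel), if_pos hm]
          · rw [if_neg fun h0 => hm (by rw [← h0]; abel), if_neg hm]
        · simp only [Pi.mul_apply, ind]
          rw [if_neg (Ne.symm ha), zero_mul]
      show (fun z : LevMod r I × LevMod r I => ind m (-(z.1 + z.2))) ∈ T
      rw [key]
      exact Subalgebra.sum_mem _ fun a _ => T.mul_mem
        (Algebra.subset_adjoin (Or.inl ⟨Sum.inr a, rfl⟩))
        (Algebra.subset_adjoin (Or.inr ⟨Sum.inr (-m - a), rfl⟩))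

end Fermat.Agent.R59.Phi
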