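/-
S59, unit H: flatness and ordinarity of adic representations read on their matrices, and the
consequence that an ordinary deformation of a residual representation which is not flat has unramified
character of square one.
-/
import Fermat.Agent.R59.Phi.FlatModel
import Fermat.Prelude.Def_GaloisRep_Flat

set_option autoImplicit false
set_option linter.style.haveILetI false
set_option linter.unusedSectionVars false

noncomputable section

namespace Fermat.Agent.R59.Phi

open Matrix IsLocalRing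
open Fermat.Agent.Galois (GQ)
open Fermat.Agent.MCurve.Flat (HasFlatModel)
open Fermat.Agent.Deform (Mat2 mapHom HasMatrix RHasMatrix)

local notation "ℚb" => AlgebraicClosure ℚ

variable {p : ℕ} [Fact p.Prime] {A : ValuationSubring (AlgebraicClosure ℚ)}

section Transport

variable {R S : Type} [CommRing R] [CommRing S]

/-- The levels of a pushforward. -/
theorem flatLev_map_iff (φ : R →+* S) (hφ : Function.Surjective φ) (r : GQ →* Mat2 R) (J : Ideal S)
    [Finite (S ⧸ J)] : FlatLev p ((mapHom φ).comp r) J ↔ FlatLev p r (J.comap φ) := by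
  letI := levAct ((mapHom φ).comp r) J
  letI := levAct r (J.comap φ)
  let π : R ⧸ J.comap φ →+* S ⧸ J := Ideal.quotientMap J φ (le_refl (J.comap φ))
  have hπ : Function.Bijective π := by
    refine ⟨Ideal.quotientMap_injective, fun y => ?_⟩
    obtain ⟨s, rfl⟩ := Ideal.Quotient.mk_surjective y
    obtain ⟨x, rfl⟩ := hφ s
    exact ⟨Ideal.Quotient.mk _ x, Ideal.quotientMap_mk⟩
  haveI : Finite (R ⧸ J.comap φ) := Finite.of_injective π hπ.1
  have hred : ∀ σ, (red r (J.comap φ) σ).map π = red ((mapHom φ).comp r) J σ := fun σ => by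
    ext i j
    exact Ideal.quotientMap_mk (I := J) (f := φ) (H := le_refl (J.comap φ))
  let q : LevMod r (J.comap φ) →+ LevMod ((mapHom φ).comp r) J := π.toAddMonoidHom.compLeft (Fin 2)
  have hq : ∀ (σ : GQ) x, q (σ • x) = σ • q x := fun σ x => funext fun i => by
    show π ((red r _ σ *ᵥ x) i) = _
    rw [RingHom.map_mulVec, hred]
    rfl
  have hqb : Function.Bijective q :=
    ⟨fun x y hxy => funext fun i => hπ.1 (congrFun hxy i), fun y => by
      choose x hx using fun i => hπ.2 (y i)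
      exact ⟨x, funext hx⟩⟩
  let e := AddEquiv.ofBijective q hqb
  refine ⟨fun h => HasFlatModel.of_surjective (M := LevMod ((mapHom φ).comp r) J) h
      (Q := LevMod r (J.comap φ)) e.symm.toAddMonoidHom (fun σ y => ?_) e.symm.surjective,
    fun h => HasFlatModel.of_surjective (M := LevMod r (J.comap φ)) h q hq hqb.2⟩
  obtain ⟨x, rfl⟩ := e.surjective y
  show e.symm (σ • q x) = σ • e.symm (e x)
  rw [← hq, e.symm_apply_apply]
  exact e.symm_apply_apply _

/-- The levels of conjugate representations. -/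
theorem flatLev_conj {r r' : GQ →* Mat2 R} (U : (Mat2 R)ˣ) (hU : ∀ σ, r σ * U = U * r' σ)
    (I : Ideal R) [Finite (R ⧸ I)] (h : FlatLev p r I) : FlatLev p r' I := by
  letI := levAct r I
  letI := levAct r' I
  let V : (Mat2 (R ⧸ I))ˣ := Units.map (mapHom (Ideal.Quotient.mk I)) U
  have hV : ∀ σ, red r I σ * V = V * red r' I σ := fun σ => by
    have := congrArg (mapHom (Ideal.Quotient.mk I)) (hU σ)
    rwa [map_mul, map_mul] at this
  let q : LevMod r I →+ LevMod r' I :=
    { toFun := fun x => (↑V⁻¹ : Mat2 (R ⧸ I)) *ᵥ x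
      map_zero' := mulVec_zero _
      map_add' := mulVec_add _ }
  refine HasFlatModel.of_surjective (M := LevMod r I) h q (fun σ x => ?_) fun y => ⟨(V : Mat2 _) *ᵥ y, ?_⟩
  · show (↑V⁻¹ : Mat2 (R ⧸ I)) *ᵥ (red r I σ *ᵥ x) = red r' I σ *ᵥ ((↑V⁻¹ : Mat2 (R ⧸ I)) *ᵥ x)
    rw [mulVec_mulVec, mulVec_mulVec]
    congr 1
    calc (↑V⁻¹ : Mat2 (R ⧸ I)) * red r I σ = ↑V⁻¹ * (red r I σ * V) * ↑V⁻¹ := by
          rw [mul_assoc, mul_assoc, Units.mul_inv, mul_one]
      _ = _ := by rw [hV, Units.inv_mul_cancel_left]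
  · show (↑V⁻¹ : Mat2 (R ⧸ I)) *ᵥ ((V : Mat2 (R ⧸ I)) *ᵥ y) = y
    rw [mulVec_mulVec, Units.inv_mul, one_mulVec]

end Transport

variable {R : Type} [CommRing R] [IsLocalRing R]

/-- An ideal of finite index contains a power of the maximal ideal. -/
theorem exists_pow_le (I : Ideal R) [Finite (R ⧸ I)] : ∃ N, maximalIdeal R ^ N ≤ I := by
  rcases eq_or_ne I ⊤ with rfl | hne
  · exact ⟨0, le_top⟩
  haveI : Nontrivial (R ⧸ I) := Ideal.Quotient.nontrivial_iff.mpr hne
  haveI : IsLocalRing (R ⧸ I) :=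
    IsLocalRing.of_surjective' (Ideal.Quotient.mk I) Ideal.Quotient.mk_surjective
  haveI : IsArtinianRing (R ⧸ I) := inferInstance
  obtain ⟨N, hN⟩ := IsArtinianRing.isNilpotent_jacobson_bot (R := R ⧸ I)
  refine ⟨N, fun x hx => Ideal.Quotient.eq_zero_iff_mem.mp ?_⟩
  have h1 : maximalIdeal R ≤ (Ideal.jacobson (⊥ : Ideal (R ⧸ I))).comap (Ideal.Quotient.mk I) := by
    intro y hy
    rw [Ideal.mem_comap, IsLocalRing.jacobson_eq_maximalIdeal ⊥ bot_ne_top]
    haveI : IsLocalHom (Ideal.Quotient.mk I) :=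
      IsLocalHom.of_surjective _ Ideal.Quotient.mk_surjective
    exact map_nonunit _ y hy
  have h2 := Ideal.map_le_iff_le_comap.mpr h1
  have h3 := Ideal.pow_right_mono h2 N (Ideal.map_pow (Ideal.Quotient.mk I) _ N ▸
    Ideal.mem_map_of_mem (Ideal.Quotient.mk I) hx)
  rwa [hN] at h3

/-- The coordinates of a level. -/
theorem isFlatAt_iff {ρ : GaloisRepAdic R} {r : GQ →* Mat2 R} (h : HasMatrix ρ r) :
    ρ.IsFlatAt p ↔ Finite (ResidueField R) ∧
      ∀ I : Ideal R, Finite (R ⧸ I) → FlatLev p r I := by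
  obtain ⟨b, hb⟩ := h
  have hequiv : ∀ I : Ideal R, ∃ e : (ρ.V ⧸ (I • (⊤ : Submodule R ρ.V))) ≃+ LevMod r I,
      ∀ σ x, e (ρ.levelAction I σ x) = red r I σ *ᵥ e x := by
    intro I
    let f : ρ.V →+ LevMod r I :=
      { toFun := fun v i => Ideal.Quotient.mk I (b.repr v i)
        map_zero' := funext fun i => (congrArg (Ideal.Quotient.mk I)
          (by rw [map_zero, Finsupp.zero_apply])).trans (map_zero _)
        map_add' := fun v w => funext fun i => (congrArg (Ideal.Quotient.mk I)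
          (by rw [map_add, Finsupp.add_apply])).trans (map_add _ _ _) }
    have hker : ∀ v, f v = 0 ↔ v ∈ I • (⊤ : Submodule R ρ.V) := fun v => by
      constructor
      · intro hv
        rw [← b.sum_repr v]
        exact Submodule.sum_mem _ fun i _ => Submodule.smul_mem_smul
          (Ideal.Quotient.eq_zero_iff_mem.mp (congrFun hv i)) Submodule.mem_top
      · intro hv
        refine funext fun i => Ideal.Quotient.eq_zero_iff_mem.mpr ?_
        refine Submodule.smul_induction_on hv (fun c hc w _ => ?_) fun x y hx hy => ?_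
        · rw [map_smul, Finsupp.smul_apply, smul_eq_mul]
          exact Ideal.mul_mem_right _ _ hc
        · rw [map_add, Finsupp.add_apply]
          exact add_mem hx hy
    let g : (ρ.V ⧸ (I • (⊤ : Submodule R ρ.V))) →+ LevMod r I :=
      QuotientAddGroup.lift (I • (⊤ : Submodule R ρ.V)).toAddSubgroup f fun v hv => (hker v).mpr hv
    have hg : Function.Bijective g := by
      refine ⟨(injective_iff_map_eq_zero g).mpr fun y hy => ?_, fun y => ?_⟩
      · obtain ⟨v, rfl⟩ := Submodule.Quotient.mk_surjective _ y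
        exact (Submodule.Quotient.mk_eq_zero _).mpr ((hker v).mp hy)
      · choose x hx using fun i => Ideal.Quotient.mk_surjective (y i)
        refine ⟨Submodule.Quotient.mk (∑ i, x i • b i), funext fun i => ?_⟩
        show Ideal.Quotient.mk I (b.repr (∑ j, x j • b j) i) = y i
        rw [b.repr_sum_self, hx]
    refine ⟨AddEquiv.ofBijective g hg, fun σ y => ?_⟩
    obtain ⟨v, rfl⟩ := Submodule.Quotient.mk_surjective _ y
    show g (ρ.levelAction I σ (Submodule.Quotient.mk v)) = red r I σ *ᵥ g (Submodule.Quotient.mk v)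
    rw [GaloisRepAdic.levelAction, Submodule.mapQ_apply]
    funext i
    show Ideal.Quotient.mk I (b.repr (ρ.ρ σ v) i) =
      ((r σ).map (Ideal.Quotient.mk I) *ᵥ (Ideal.Quotient.mk I ∘ fun j => b.repr v j)) i
    rw [← RingHom.map_mulVec, ← hb σ, LinearMap.toMatrix_mulVec_repr]
  constructor
  · rintro ⟨hfin, hmodel⟩
    refine ⟨hfin, fun I hI => ?_⟩
    letI := levAct r I
    obtain ⟨e, he⟩ := hequiv I
    obtain ⟨H, i₁, i₂, hf, hfl, hcc, e', hadd, hσ⟩ := hmodel I hI
    exact ⟨H, i₁, i₂, hf, hfl, hcc, e'.trans e.toEquiv,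
      fun f g => (congrArg e (hadd f g)).trans (map_add e _ _),
      fun σ f g hfg => (congrArg e (hσ σ f g hfg)).trans (he σ _)⟩
  · rintro ⟨hfin, hlev⟩
    refine ⟨hfin, fun I hI => ?_⟩
    letI := levAct r I
    obtain ⟨e, he⟩ := hequiv I
    obtain ⟨H, i₁, i₂, hf, hfl, hcc, e', hadd, hσ⟩ := hlev I hI
    refine ⟨H, i₁, i₂, hf, hfl, hcc, e'.trans e.symm.toEquiv,
      fun f g => (congrArg e.symm (hadd f g)).trans (map_add e.symm _ _),
      fun σ f g hfg => ?_⟩
    show e.symm (e' g) = ρ.levelAction I σ (e.symm (e' f))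
    rw [hσ σ f g hfg, AddEquiv.symm_apply_eq, he, AddEquiv.apply_symm_apply]
    rfl

/-- An ordinary representation of cyclotomic determinant is upper triangular in a basis. -/
theorem exists_ordAt {ρ : GaloisRepAdic R} (ho : ρ.IsOrdinaryAt p) (hd : ρ.DetIsCyclotomic p)
    (hA : A.LiesOverPrime p) : ∃ r, HasMatrix ρ r ∧ OrdAt p A r := by
  obtain ⟨L, ⟨b, rfl⟩, hD, hI⟩ := ho A hA
  have hr := Deform.hasMatrix_matrixHom ρ b
  have hval : ∀ σ i j, Deform.matrixHom ρ b σ i j = b.repr (ρ.ρ σ (b j)) i := fun σ i j =>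
    LinearMap.toMatrix_apply b b (ρ.ρ σ) i j
  have hline : ∀ v ∈ R ∙ b 0, b.repr v 1 = 0 := fun v hv => by
    obtain ⟨c, rfl⟩ := Submodule.mem_span_singleton.mp hv
    rw [map_smul, Finsupp.smul_apply, b.repr_self, Finsupp.single_eq_of_ne one_ne_zero, smul_zero]
  refine ⟨_, hr, hA, fun σ hσ => ?_, fun σ hσ => ?_, fun I hI' => ?_, fun n σ a ha => ?_⟩
  · rw [hval]
    exact hline _ (hD σ hσ _ (Submodule.mem_span_singleton_self _))
  · have := hline _ (hI σ hσ (b 1))
    rw [map_sub, Finsupp.sub_apply, b.repr_self, Finsupp.single_eq_same, sub_eq_zero] at this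
    rw [hval]
    exact this
  · haveI := hI'
    obtain ⟨N, hN⟩ := exists_pow_le I
    obtain ⟨L', hL', hr'⟩ := hr.matCts N
    refine ⟨L', hL', fun σ hσ => ?_⟩
    ext i j
    show Ideal.Quotient.mk I (Deform.matrixHom ρ b σ i j) = _
    have h1 := Ideal.Quotient.eq_zero_iff_mem.mpr (hN (hr' σ hσ i j))
    rw [Matrix.sub_apply, map_sub, sub_eq_zero] at h1
    rw [h1]
    fin_cases i <;> fin_cases j <;> simp
  · show (LinearMap.toMatrix b b (ρ.ρ σ)).det - _ ∈ _
    rw [LinearMap.det_toMatrix]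
    exact hd.2 n σ a ha

/-- The square of the unramified character of an ordinary deformation of a residual representation
which is not flat is one. -/
theorem sq_unram_eq_one [Finite R] {r : GQ →* Mat2 R} (h : OrdAt p A r)
    (hp : (p : R) ∈ maximalIdeal R) (hnf : ¬ FlatLev p r (maximalIdeal R)) {σ : GQ}
    (hσ : σ ∈ A.decompositionSubgroup ℚ) : r σ 1 1 ^ 2 = 1 := by
  haveI : Finite (R ⧸ (⊥ : Ideal R)) := Finite.of_surjective _ Ideal.Quotient.mk_surjective
  obtain ⟨N, hN⟩ := exists_pow_le (⊥ : Ideal R)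
  have hI : ((p ^ (N + 1) : ℕ) : R) ∈ (⊥ : Ideal R) := by
    rw [Nat.cast_pow, pow_succ]
    exact Ideal.mul_mem_right _ _ (hN (Ideal.pow_mem_pow hp N))
  obtain ⟨c, hc⟩ := exists_isKClass h hI
  obtain ⟨c', rfl⟩ := Ideal.Quotient.mk_surjective c
  haveI : Finite (R ⧸ maximalIdeal R) := Finite.of_surjective _ Ideal.Quotient.mk_surjective
  have hu : IsUnit c' := by
    by_contra hnu
    refine hnf (flatLev_of_isKClass h (n := N + 1) (bot_le (a := maximalIdeal R) hI) ?_)
    have h1 := hc.factor h (J := maximalIdeal R) bot_le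
    rwa [Ideal.Quotient.factor_mk, Ideal.Quotient.eq_zero_iff_mem.mpr
      ((mem_maximalIdeal c').mpr hnu)] at h1
  have h2 : Ideal.Quotient.mk (⊥ : Ideal R) ((r σ 1 1 ^ 2 - 1) * c') = 0 := by
    rw [map_mul, map_sub, map_pow, map_one, sub_mul, one_mul, sub_eq_zero]
    exact hc.smul_eq h hI hσ
  rw [Ideal.Quotient.eq_zero_iff_mem, Ideal.mem_bot, hu.mul_left_eq_zero, sub_eq_zero] at h2
  exact h2

/-- A lift of a residual representation which is not flat is not flat modulo the maximal ideal. -/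
theorem not_flatLev_maximal {k : Type} [Field k] [Finite k] {ρbar : ResidualGaloisRep k}
    (hnf : ¬ (GaloisRepAdic.ofResidualGaloisRep ρbar).IsFlatAt p) {ρ : GaloisRepAdic R}
    {r : GQ →* Mat2 R} (hr : HasMatrix ρ r) (φ : k →+* ResidueField R)
    (hφ : Function.Surjective φ) (e : ρ.residual.IsEquiv (ρbar.baseChangeAlong φ)) :
    ¬ FlatLev p r (maximalIdeal R) := by
  intro hflat
  refine hnf ?_
  let b := Module.finBasisOfFinrankEq k ρbar.V ρbar.finrank_eq
  let r₀ : GQ →* Mat2 k := (LinearMap.toMatrixAlgEquiv b).toMonoidHom.comp ρbar.ρ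
  have h₀ : RHasMatrix ρbar r₀ := ⟨b, fun _ => rfl⟩
  have h₀' : HasMatrix (GaloisRepAdic.ofResidualGaloisRep ρbar) r₀ := ⟨b, fun _ => rfl⟩
  haveI : Finite (ResidueField R) := Finite.of_surjective φ hφ
  obtain ⟨U, hU⟩ := (hr.residual).exists_conj ((h₀.baseChangeAlong φ).of_equiv (e.map fun e' => e'.symm))
  haveI : Finite (ResidueField R ⧸ (⊥ : Ideal (ResidueField R))) :=
    Finite.of_surjective _ Ideal.Quotient.mk_surjective
  have hker : (⊥ : Ideal (ResidueField R)).comap (residue R) = maximalIdeal R := by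
    ext x
    rw [Ideal.mem_comap, Ideal.mem_bot, residue_eq_zero_iff]
  have h1 : FlatLev p ((mapHom (residue R)).comp r) (⊥ : Ideal (ResidueField R)) := by
    rw [flatLev_map_iff _ residue_surjective, hker]
    exact hflat
  have h2 : FlatLev p r₀ ((⊥ : Ideal (ResidueField R)).comap φ) :=
    (flatLev_map_iff φ hφ r₀ ⊥).mp (flatLev_conj U hU ⊥ h1)
  rw [Ideal.comap_bot_of_injective φ φ.injective] at h2
  refine (isFlatAt_iff h₀').mpr ⟨Finite.of_surjective (residue k) residue_surjective, fun I hI => ?_⟩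
  haveI : Finite (k ⧸ (⊥ : Ideal k)) := Finite.of_surjective _ Ideal.Quotient.mk_surjective
  exact flatLev_mono bot_le h2

end Fermat.Agent.R59.Phi
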