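/-
S59, unit H: the growth of the cotangent space from a minimal quotient.

Justification: divide `Y.R` by the entries of `ρ(σ) - 1` on inertia at `sig` and, for `raiseP`, by
the valuation components of the ordinary extension class at `p` (which makes it flat).  Modulo
`℘²` these are values of a homomorphism on inertia killed by `Ad φ - q` on trace zero matrices, of
determinant `gammaQ` up to sign, resp. by `α² - 1` (Frobenius equivariance of Kummer theory).
-/
import Fermat.Agent.R59.Phi.Bound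
import Fermat.Agent.R59.Crit.Relations

set_option autoImplicit false
set_option linter.style.haveILetI false

open IsLocalRing
open Fermat.Agent.Galois (GQ)
open Fermat.Agent.Deform (Mat2 mapHom HasMatrix)

namespace Fermat.Agent.R59

variable {p : ℕ} [Fact p.Prime] {O : Type} [CommRing O] [IsDomain O] [IsDiscreteValuationRing O]
  [IsAdicComplete (maximalIdeal O) O] [Finite (ResidueField O)]
  [Algebra ℤ_[p] O] [Module.Finite ℤ_[p] O] [CharZero O]
  {ρbar : ResidualGaloisRep (ResidueField O)} {N : ℕ} [NeZero N] {U aux S : Finset ℕ} {a : ℕ → O}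
  {ord : Bool}

/-- A minimal quotient through which a minimal point factors, with a small cotangent kernel. -/
theorem exists_minimal_quotient (H : Seed p O ρbar N U aux S a ord) (sig : Finset ℕ)
    (hsig : ∀ q ∈ sig, q.Prime ∧ q ≠ p ∧ q ∉ U ∧ q ∉ aux ∧ q ∈ S) (raiseP : Bool)
    (hP : raiseP = true → ord = false ∧ (GaloisRepAdic.ofResidualGaloisRep ρbar).IsOrdinaryAt p)
    (Y X₀ : Lift p O ρbar) (hY : Y.Cond (U ∪ sig) U (ord || raiseP)) (h₀ : X₀.Cond U U ord)
    (σ : Y.R →ₐ[O] X₀.R) (hσ : Y.IsHom X₀ σ) (g : X₀.R →ₐ[O] O) (t : ℕ → O)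
    (ht : ∀ q ∈ sig, X₀.HasFrobTrace g q (t q)) (γp : O) (hγp : raiseP = false → γp = 1)
    (hγp' : raiseP = true → ∃ α : O, IsUnit α ∧ X₀.HasUnitRoot g α ∧ γp = α ^ 2 - 1) :
    ∃ (Z : Lift p O ρbar) (π : Y.R →ₐ[O] Z.R) (σ' : Z.R →ₐ[O] X₀.R),
      Function.Surjective π ∧ Y.IsHom Z π ∧ Z.IsHom X₀ σ' ∧ σ'.comp π = σ ∧ Z.Cond U U ord ∧
      cotLen (g.comp σ) ≤ cotLen (g.comp σ') +
        Module.length O (O ⧸ Ideal.span {(∏ q ∈ sig, gammaQ q (t q)) * γp}) := by
  classical
  have hp : (p : O) ∈ maximalIdeal O := H.p_mem_maximal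
  have hpR : (p : Y.R) ∈ maximalIdeal Y.R := Y.det_cyclotomic.1
  set π : Y.R →ₐ[O] O := g.comp σ with hπdef
  have hpp : p.Prime := Fact.out
  haveI : Finite (ResidueField Y.R) := Finite.of_surjective _ (Phi.residueMap_surjective Y)
  let b := Module.finBasisOfFinrankEq (ResidueField O) ρbar.V ρbar.finrank_eq
  obtain ⟨r, hr, -⟩ := Phi.exists_lift_matrix Y
    (rbar := (LinearMap.toMatrixAlgEquiv b).toMonoidHom.comp ρbar.ρ) ⟨b, fun _ => rfl⟩
  have hrX : HasMatrix X₀.ρ ((mapHom σ.toRingHom).comp r) := Phi.hasMatrix_push H.absIrr hσ hr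
  -- a place over every prime
  have hplaces : ∀ q : ℕ, ∃ A : ValuationSubring (AlgebraicClosure ℚ),
      q.Prime → A.LiesOverPrime q := fun q => by
    by_cases hq : q.Prime
    · obtain ⟨A, hA⟩ := Galois.exists_liesOverPrime hq
      exact ⟨A, fun _ => hA⟩
    · exact ⟨⊤, fun h => absurd h hq⟩
  choose A hA using hplaces
  -- the tame ideal
  let Jq : Ideal Y.R := Ideal.span
    {x | ∃ q ∈ sig, ∃ τ ∈ (A q).inertiaSubgroupIn ℚ, ∃ i j, x = (r τ - 1) i j}
  have hJq : Jq ≤ RingHom.ker σ.toRingHom := by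
    refine Ideal.span_le.mpr ?_
    rintro _ ⟨q, hq, τ, hτ, i, j, rfl⟩
    obtain ⟨hqp, hqne, hqU, -, -⟩ := hsig q hq
    obtain ⟨bX, hbX⟩ := hrX
    have h1 : ((mapHom σ.toRingHom).comp r) τ = 1 := by
      rw [← hbX τ, h₀.unramified q hqp hqne hqU (A q) (hA q hqp) τ hτ]
      exact LinearMap.toMatrix_one bX
    show σ ((r τ - 1) i j) = 0
    have h2 : σ (r τ i j) = (1 : Mat2 X₀.R) i j := congrFun (congrFun h1 i) j
    rw [Matrix.sub_apply, map_sub, h2, Matrix.one_apply, Matrix.one_apply, apply_ite σ, map_one,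
      map_zero, sub_self]
  -- the ordinary matrix at `p`
  have hordY : raiseP = true → ∃ rp : GQ →* Mat2 Y.R, HasMatrix Y.ρ rp ∧ Phi.OrdAt p (A p) rp :=
    fun hr' => Phi.exists_ordAt (hY.ordinary (by simp [hr'])) Y.det_cyclotomic (hA p hpp)
  let Jp : Ideal Y.R :=
    if h : raiseP = true then Phi.flatKer p (hordY h).choose else ⊥
  have hJp : Jp ≤ RingHom.ker σ.toRingHom := by
    simp only [Jp]
    split_ifs with h
    · obtain ⟨hrp, -⟩ := (hordY h).choose_spec
      have hflat := (Phi.isFlatAt_iff (Phi.hasMatrix_push H.absIrr hσ hrp)).mp (h₀.flat (hP h).1)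
      haveI := hflat.1
      intro x hx
      show σ x = 0
      rw [← Submodule.mem_bot X₀.R,
        ← Ideal.iInf_pow_eq_bot_of_isLocalRing (maximalIdeal X₀.R) (maximalIdeal.isMaximal X₀.R).ne_top,
        Submodule.mem_iInf]
      intro k
      haveI := Phi.finite_quotient_maximal_pow (R := X₀.R) k
      haveI : Finite (Y.R ⧸ (maximalIdeal X₀.R ^ k).comap σ.toRingHom) :=
        Finite.of_injective
          (Ideal.quotientMap (maximalIdeal X₀.R ^ k) σ.toRingHom le_rfl) Ideal.quotientMap_injective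
      exact Phi.flatKer_le ((Phi.flatLev_map_iff σ.toRingHom (Phi.isHom_surjective hσ) _ _).mp
        (hflat.2 _ inferInstance)) hx
    · exact bot_le
  set J := Jq ⊔ Jp with hJdef
  have hJσ : J ≤ RingHom.ker σ.toRingHom := sup_le hJq hJp
  have hJ : J ≠ ⊤ := fun h => RingHom.ker_ne_top σ.toRingHom (top_le_iff.mp (h ▸ hJσ))
  let Z := Phi.quotLift Y J hJ
  let π₁ : Y.R →ₐ[O] Z.R := Phi.quotProj Y J hJ
  haveI hloc : IsLocalHom (π₁.toRingHom) :=
    IsLocalHom.of_surjective _ (Phi.quotProj_surjective Y J hJ)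
  let σ' : Z.R →ₐ[O] X₀.R := Ideal.Quotient.liftₐ J σ fun x hx => hJσ hx
  have hcomp : σ'.comp π₁ = σ := AlgHom.ext fun x => rfl
  have hσ' : Z.IsHom X₀ σ' := fun τ => by
    rw [← Phi.isHom_quotProj Y J hJ τ, ← hσ τ]
    rfl
  have hZρ : Z.ρ = Y.ρ.baseChangeAlong π₁.toRingHom hloc := rfl
  have hrZ : HasMatrix Z.ρ ((mapHom π₁.toRingHom).comp r) := by
    rw [hZρ]; exact hr.baseChangeAlong _ _
  have hZ : Z.Cond U U ord := by
    constructor
    · intro l hl hlp hlU
      by_cases hls : l ∈ sig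
      · intro P hP τ hτ
        obtain ⟨bZ, hbZ⟩ := hrZ
        have h1 : (mapHom π₁.toRingHom).comp r τ = 1 :=
          Phi.entries_mem_of_conj r hl (hA l hl) (I := J) (fun t ht i j => Submodule.mem_sup_left
            (Ideal.subset_span ⟨l, hls, t, ht, i, j, rfl⟩)) hP hτ
        apply (LinearMap.toMatrix bZ bZ).injective
        rw [hbZ τ, h1]
        exact (LinearMap.toMatrix_one bZ).symm
      · rw [hZρ]
        exact TW56.isUnramifiedAt_baseChange (hφ := hloc)
          (hY.unramified l hl hlp (by simp [hlU, hls]))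
    · intro l hl
      rw [hZρ]
      exact TW56.isUnipotentOnInertiaAt_baseChange (hφ := hloc) (hY.unipotent l hl)
    · intro ho
      rcases Bool.eq_false_or_eq_true raiseP with hr' | hr'
      · obtain ⟨hrp, hord'⟩ := (hordY hr').choose_spec
        have hrpZ : HasMatrix Z.ρ ((mapHom π₁.toRingHom).comp (hordY hr').choose) := by
          rw [hZρ]; exact hrp.baseChangeAlong _ _
        refine (Phi.isFlatAt_iff hrpZ).mpr
          ⟨Finite.of_surjective _ (Phi.residueMap_surjective Z), fun I hI => ?_⟩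
        haveI := hI
        haveI : Finite (Y.R ⧸ I.comap π₁.toRingHom) :=
          Finite.of_injective (Ideal.quotientMap I π₁.toRingHom le_rfl) Ideal.quotientMap_injective
        rw [Phi.flatLev_map_iff _ (Phi.quotProj_surjective Y J hJ)]
        refine Phi.flatLev_of_flatKer_le hord' fun x hx => ?_
        have hx' : x ∈ J := Submodule.mem_sup_right (by
          simp only [Jp, dif_pos hr']; exact hx)
        rw [Ideal.mem_comap, show π₁.toRingHom x = 0 from Ideal.Quotient.eq_zero_iff_mem.mpr hx']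
        exact zero_mem I
      · rw [hZρ]
        exact TW56.isFlatAt_baseChange (hφ := hloc) (Phi.quotProj_surjective Y J hJ)
          (hY.flat (by simp [ho, hr']))
    · intro ho
      rw [hZρ]
      exact Phi.isOrdinaryAt_baseChange _ hloc (hY.ordinary (by simp [ho]))
  refine ⟨Z, π₁, σ', Phi.quotProj_surjective Y J hJ, Phi.isHom_quotProj Y J hJ, hσ', hcomp, hZ, ?_⟩
  -- the bound
  show cotLen π ≤ _ + Ring.ord O _
  rcases eq_or_ne ((∏ q ∈ sig, gammaQ q (t q)) * γp) 0 with h0 | h0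
  · refine le_of_le_of_eq le_top (Eq.symm ?_)
    rw [h0, Ring.ord_zero]
    by_contra hne
    have htop : Module.length O O ≠ ⊤ := fun h => hne (by rw [h, add_top])
    have : IsArtinianRing O :=
      (isFiniteLength_iff_isNoetherian_isArtinian.mp (Module.length_ne_top_iff.mp htop)).2
    exact IsDiscreteValuationRing.not_isField O (IsArtinianRing.isField_of_isDomain O)
  have hprod : ∀ q ∈ sig, gammaQ q (t q) ≠ 0 :=
    Finset.prod_ne_zero_iff.mp (mul_ne_zero_iff.mp h0).1
  have hγ : γp ≠ 0 := (mul_ne_zero_iff.mp h0).2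
  rw [mul_comm (∏ q ∈ sig, gammaQ q (t q)) γp,
    Ring.ord_mul' O (mem_nonZeroDivisors_of_ne_zero hγ), ord_prod _ _ hprod,
    add_comm (Ring.ord O γp)]
  -- the part at `p`
  obtain ⟨Kp, hKp, hKp'⟩ : ∃ Kp : Submodule O (Cot π), Module.length O Kp ≤ Ring.ord O γp ∧
      ∀ x ∈ Jp, π x = 0 → Phi.cls π x ∈ Kp := by
    rcases Bool.eq_false_or_eq_true raiseP with hr' | hr'
    · obtain ⟨hrp, hord'⟩ := (hordY hr').choose_spec
      set rp := (hordY hr').choose with hrpdef
      obtain ⟨α, -, hα, rfl⟩ := hγp' hr'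
      obtain ⟨φ, hφ⟩ := Galois.exists_isFrobeniusAt hpp (hA p hpp)
      obtain ⟨r', hr0, hlow', hunr', hfr'⟩ := hα (A p) (hA p hpp)
      obtain ⟨τ, hτ, hτne⟩ := Phi.exists_det_ne_one H.p_ne_two (hA p hpp) hp
      have hτd := FlatBound.inertia_mem_decomposition hτ
      set r₁ : GQ →* Mat2 O := (mapHom π.toRingHom).comp rp with hr₁
      set r₂ : GQ →* Mat2 O := (mapHom g.toRingHom).comp r' with hr₂
      have htr : ∀ s, (r₁ s).trace = (r₂ s).trace := fun s => by
        have h1 : π (Y.ρ.trace s) = g (X₀.ρ.trace s) := by rw [hπdef, AlgHom.comp_apply, hσ]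
        rw [hrp.trace_eq, hr0.trace_eq, Matrix.trace_fin_two, Matrix.trace_fin_two, map_add,
          map_add] at h1
        rw [Matrix.trace_fin_two, Matrix.trace_fin_two]
        exact h1
      have hdet₁ : ∀ n (s : GQ) (a : ℕ),
          (∀ μ : AlgebraicClosure ℚ, μ ^ p ^ n = 1 → s μ = μ ^ a) →
          (r₁ s).det - (a : O) ∈ Ideal.span {((p ^ n : ℕ) : O)} := fun n s a ha => by
        show ((π.toRingHom).mapMatrix (rp s)).det - _ ∈ _
        rw [← RingHom.map_det, ← map_natCast π.toRingHom a, ← map_sub]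
        exact TW56.map_mem_span_natCast (φ := π.toRingHom) (Phi.det_sub_mem Y.det_cyclotomic hrp n s a ha)
      have hdet₂ : ∀ n (s : GQ) (a : ℕ),
          (∀ μ : AlgebraicClosure ℚ, μ ^ p ^ n = 1 → s μ = μ ^ a) →
          (r₂ s).det - (a : O) ∈ Ideal.span {((p ^ n : ℕ) : O)} := fun n s a ha => by
        show ((g.toRingHom).mapMatrix (r' s)).det - _ ∈ _
        rw [← RingHom.map_det, ← map_natCast g.toRingHom a, ← map_sub]
        exact TW56.map_mem_span_natCast (φ := g.toRingHom) (Phi.det_sub_mem X₀.det_cyclotomic hr0 n s a ha)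
      have hdeq : (r₁ τ).det = (r₂ τ).det := Phi.eq_of_forall_sub_mem_span hp fun n => by
        have hspec : ∀ μ : AlgebraicClosure ℚ, μ ^ p ^ n = 1 →
            τ μ = μ ^ ((GalRep.cyc p τ).val.toZModPow n).val := fun μ hμ =>
          GalRep.cyc_spec p τ μ hμ
        have h1 := sub_mem (hdet₁ n τ _ hspec) (hdet₂ n τ _ hspec)
        rwa [sub_sub_sub_cancel_right] at h1
      have hval : π (rp φ 1 1) = α := by
        refine (Phi.unram_eq r₁ r₂ htr (φ := φ) (τ := τ) ?_ ?_ ?_ ?_ ?_ ?_ hdeq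
          (hτne _ (hdet₁ 1 τ))).trans (hfr' φ hφ)
        · show π (rp φ 1 0) = 0
          rw [hord'.low φ hφ.mem_decompositionSubgroup, map_zero]
        · show π (rp τ 1 0) = 0
          rw [hord'.low τ hτd, map_zero]
        · show π (rp τ 1 1) = 1
          rw [hord'.unram τ hτ, map_one]
        · exact hlow' φ hφ.mem_decompositionSubgroup
        · exact hlow' τ hτd
        · exact hunr' τ hτ
      obtain ⟨x, hx0, hxγ, hle⟩ := Phi.exists_flatKer_le hord' hp hpR π
        hφ.mem_decompositionSubgroup hval hγ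
      refine ⟨O ∙ Phi.cls π x, Phi.length_span_singleton_le ?_, fun y hy _ => ?_⟩
      · rw [← Phi.cls_eq_zero hxγ, Algebra.smul_def (α ^ 2 - 1) x,
          Phi.cls_mul _ (RingHom.mem_ker.mpr hx0), AlgHom.commutes]
        rfl
      · have hle' : RingHom.ker π.toRingHom ^ 2 ⊔ Ideal.span {x} ≤
            Phi.clsIdeal π (O ∙ Phi.cls π x) := by
          refine sup_le (fun u hu => ⟨RingHom.mem_ker.mp (Ideal.pow_le_self two_ne_zero hu), ?_⟩)
            ((Ideal.span_singleton_le_iff_mem _).mpr ⟨hx0, Submodule.mem_span_singleton_self _⟩)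
          rw [Phi.cls_eq_zero hu]
          exact zero_mem _
        simp only [Jp, dif_pos hr'] at hy
        exact (hle' (hle hy)).2
    · refine ⟨⊥, (Module.length_eq_zero (R := O) (M := (⊥ : Submodule O (Cot π)))).le.trans zero_le,
        fun y hy _ => ?_⟩
      have hy' : y = 0 := by simpa [Jp, hr'] using hy
      rw [hy', Phi.cls_eq_zero (zero_mem _)]
      exact zero_mem _
  let Kq : Submodule O (Cot π) := sig.sup fun q => Phi.tameSpan π r (A q)
  have hKq : Module.length O Kq ≤ ∑ q ∈ sig, Ring.ord O (gammaQ q (t q)) := by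
    refine (Phi.length_finsetSup_le sig _).trans (Finset.sum_le_sum fun q hq => ?_)
    obtain ⟨hqp, hqne, hqU, -, -⟩ := hsig q hq
    obtain ⟨F, hF⟩ := Galois.exists_isFrobeniusAt hqp (hA q hqp)
    refine Phi.length_tameSpan_le hp hqp hqne (hA q hqp) (fun I hI => ?_) (fun τ hτ => ?_)
      (fun τ hτ i j => ?_) hF ?_ ?_
    · haveI := hI
      obtain ⟨n, hn⟩ := Phi.exists_pow_le I
      obtain ⟨L, hL, hL'⟩ := hr.matCts n
      refine ⟨L, hL, fun s hs => ?_⟩
      ext i j
      have h1 := Ideal.Quotient.eq_zero_iff_mem.mpr (hn (hL' s hs i j))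
      rw [Matrix.sub_apply, map_sub, sub_eq_zero, Matrix.one_apply,
        apply_ite (Ideal.Quotient.mk I), map_one, map_zero] at h1
      rw [Matrix.one_apply]
      exact h1
    · have h1 := Phi.det_eq_natCast Y.det_cyclotomic hr (σ := τ) (m := 1) (by
        rw [GalRep.cyc_inertia p hqp hqne (hA q hqp) hτ]; simp)
      rwa [Nat.cast_one] at h1
    · show g (σ _) = 0
      rw [show σ ((r τ - 1) i j) = 0 from hJq (Ideal.subset_span ⟨q, hq, τ, hτ, i, j, rfl⟩),
        map_zero]
    · rw [Phi.det_eq_natCast Y.det_cyclotomic hr (GalRep.cyc_frobenius p hqp hqne (hA q hqp) hF),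
        map_natCast]
    · rw [← hr.trace_eq, hπdef, AlgHom.comp_apply, hσ]
      exact ht q hq (A q) (hA q hqp) F hF
  refine (Phi.cotLen_le_add π π₁ (Phi.quotProj_surjective Y J hJ) (g.comp σ') (by
    rw [AlgHom.comp_assoc, hcomp]) (Kq ⊔ Kp) fun u hu => ?_).trans
    (add_le_add le_rfl ((Phi.length_sup_le Kq Kp).trans (add_le_add hKq hKp)))
  have hle : J ≤ Phi.clsIdeal π (Kq ⊔ Kp) := by
    refine sup_le (Ideal.span_le.mpr ?_) fun y hy => ?_
    · rintro _ ⟨q, hq, τ, hτ, i, j, rfl⟩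
      refine ⟨?_, Submodule.mem_sup_left ?_⟩
      · show g (σ _) = 0
        rw [show σ ((r τ - 1) i j) = 0 from hJq (Ideal.subset_span ⟨q, hq, τ, hτ, i, j, rfl⟩),
          map_zero]
      · exact (Finset.le_sup (f := fun q => Phi.tameSpan π r (A q)) hq)
          (Submodule.subset_span ⟨τ, hτ, i, j, rfl⟩)
    · have hy0 : π y = 0 := by
        show g (σ y) = 0
        rw [show σ y = 0 from hJp hy, map_zero]
      exact ⟨hy0, Submodule.mem_sup_right (hKp' y hy hy0)⟩
  exact (hle (Ideal.Quotient.eq_zero_iff_mem.mp hu)).2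

end Fermat.Agent.R59
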