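/-
S59, unit H: the largest quotient on which an ordinary representation is flat, and the bound of its
kernel in the cotangent space at a point.
-/
import Fermat.Agent.R59.Phi.Bridge
import Mathlib.RingTheory.DiscreteValuationRing.Basic
import Mathlib.RingTheory.Filtration
import Mathlib.RingTheory.Ideal.Quotient.Index
import Mathlib.RingTheory.AdicCompletion.Basic

set_option autoImplicit false
set_option linter.style.haveILetI false
set_option linter.unusedSectionVars false

noncomputable section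

namespace Fermat.Agent.R59.Phi

open IsLocalRing
open Fermat.Agent.Galois (GQ)
open Fermat.Agent.Deform (Mat2 mapHom)

section Chevalley

variable {R : Type} [CommRing R] [IsLocalRing R] [IsNoetherianRing R]
  [IsAdicComplete (maximalIdeal R) R] [Finite (ResidueField R)]

theorem finite_quotient_maximal_pow (k : ℕ) : Finite (R ⧸ maximalIdeal R ^ k) := by
  haveI : Finite (R ⧸ maximalIdeal R) := inferInstanceAs (Finite (ResidueField R))
  exact Ideal.finite_quotient_pow (maximalIdeal R).fg_of_isNoetherianRing k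

/-- Chevalley's lemma for a family of ideals of finite index closed under intersection. -/
theorem exists_mem_le (P : Ideal R → Prop) (hfin : ∀ G, P G → Finite (R ⧸ G)) {G₀ : Ideal R}
    (h₀ : P G₀) (hinf : ∀ G G', P G → P G' → P (G ⊓ G')) (I : Ideal R) [Finite (R ⧸ I)]
    (hI : sInf {G | P G} ≤ I) : ∃ G, P G ∧ G ≤ I := by
  obtain ⟨N, hN⟩ := exists_pow_le I
  -- the least of the ideals `G + m ^ k`
  have hmin : ∀ k, ∃ G, P G ∧ ∀ G', P G' → G ⊔ maximalIdeal R ^ k ≤ G' ⊔ maximalIdeal R ^ k := by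
    intro k
    haveI := finite_quotient_maximal_pow (R := R) k
    let f : {G // P G} → Ideal (R ⧸ maximalIdeal R ^ k) := fun G =>
      (G.1 : Ideal R).map (Ideal.Quotient.mk _)
    haveI : Finite (Ideal (R ⧸ maximalIdeal R ^ k)) :=
      Finite.of_injective (fun J => (J : Set (R ⧸ maximalIdeal R ^ k))) SetLike.coe_injective
    obtain ⟨m, ⟨G, hm⟩, hle⟩ := Finite.exists_le_minimal (a := f ⟨G₀, h₀⟩) (p := fun J => ∃ G, f G = J)
      ⟨_, rfl⟩ |>.imp fun m h => (show (∃ G, f G = m) ∧ ∀ G', f G' ≤ m → m ≤ f G' from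
        ⟨h.2.prop, fun G' hG' => h.2.le_of_le ⟨G', rfl⟩ hG'⟩)
    refine ⟨G.1, G.2, fun G' hG' => ?_⟩
    have h1 : f ⟨G.1 ⊓ G', hinf _ _ G.2 hG'⟩ ≤ m := hm ▸ Ideal.map_mono inf_le_left
    have h2 := (hle _ h1).trans (Ideal.map_mono (f := Ideal.Quotient.mk _) (inf_le_right : G.1 ⊓ G' ≤ G'))
    rw [← hm] at h2
    have h3 := Ideal.comap_mono (f := Ideal.Quotient.mk (maximalIdeal R ^ k)) h2
    simp only [f, Ideal.comap_map_of_surjective _ Ideal.Quotient.mk_surjective, ← RingHom.ker_eq_comap_bot,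
      Ideal.mk_ker] at h3
    exact h3
  choose G hG hGmin using hmin
  refine ⟨G N ⊓ G N, hinf _ _ (hG N) (hG N), inf_le_left.trans fun x hx => ?_⟩
  have hstep : ∀ k y, y ∈ G k ⊔ maximalIdeal R ^ k →
      ∃ y', y' ∈ G (k + 1) ⊔ maximalIdeal R ^ (k + 1) ∧ y' - y ∈ maximalIdeal R ^ k := by
    intro k y hy
    have h1 := hGmin k _ (hinf _ _ (hG k) (hG (k + 1))) hy
    obtain ⟨g, hg, m, hm, rfl⟩ := Submodule.mem_sup.mp h1
    exact ⟨g, Submodule.mem_sup_left hg.2, by rw [sub_add_cancel_left]; exact neg_mem hm⟩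
  choose! nxt hnxt hnxt' using hstep
  let s : ℕ → R := fun k => Nat.rec x (fun i y => nxt (N + i) y) k
  have hs : ∀ k, s k ∈ G (N + k) ⊔ maximalIdeal R ^ (N + k) := by
    intro k
    induction k with
    | zero => exact Submodule.mem_sup_left hx
    | succ k ih => exact hnxt (N + k) _ ih
  have hdiff : ∀ k j, s (k + j) - s k ∈ maximalIdeal R ^ (N + k) := by
    intro k j
    induction j with
    | zero => rw [Nat.add_zero, sub_self]; exact zero_mem _
    | succ j ih =>
      have h1 : s (k + (j + 1)) - s (k + j) ∈ maximalIdeal R ^ (N + (k + j)) :=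
        hnxt' (N + (k + j)) _ (hs (k + j))
      have h2 := add_mem (Ideal.pow_le_pow_right (Nat.add_le_add_left (Nat.le_add_right k j) N) h1) ih
      rwa [sub_add_sub_cancel] at h2
  obtain ⟨y, hy⟩ := IsPrecomplete.prec
    (inferInstance : IsPrecomplete (maximalIdeal R) R) (f := s) (fun {a b} hab => by
      obtain ⟨j, rfl⟩ := Nat.exists_eq_add_of_le hab
      rw [SModEq.sub_mem, smul_eq_mul, Ideal.mul_top, ← neg_sub]
      exact neg_mem (Ideal.pow_le_pow_right (Nat.le_add_left a N) (hdiff a j)))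
  have hy' : ∀ k, s k - y ∈ maximalIdeal R ^ k := fun k => by
    have := SModEq.sub_mem.mp (hy k)
    rwa [smul_eq_mul, Ideal.mul_top] at this
  have hyI : y ∈ sInf {G | P G} := by
    rw [Submodule.mem_sInf]
    intro G' hG'
    haveI := hfin G' hG'
    obtain ⟨k, hk⟩ := exists_pow_le G'
    have h1 : s k ∈ G' :=
      (sup_le le_rfl ((Ideal.pow_le_pow_right (Nat.le_add_left k N)).trans hk) :
        G' ⊔ maximalIdeal R ^ (N + k) ≤ G') (hGmin (N + k) G' hG' (hs k))
    rw [← sub_sub_cancel (s k) y]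
    exact sub_mem h1 (hk (hy' k))
  have h1 : s N - x ∈ maximalIdeal R ^ N := by
    have := hdiff 0 N
    rwa [Nat.zero_add, Nat.add_zero] at this
  have h2 : x = y + (s N - y) - (s N - x) := by ring
  rw [h2]
  exact sub_mem (add_mem (hI hyI) (hN (hy' N))) (hN h1)

/-- An element in every `K + m ^ k` lies in `K`. -/
theorem mem_of_forall_mem_sup_pow {K : Ideal R} {x : R}
    (h : ∀ k, x ∈ K ⊔ maximalIdeal R ^ k) : x ∈ K := by
  have hK : (⨅ i : ℕ, maximalIdeal R ^ i • ⊤ : Submodule R (R ⧸ K)) = ⊥ :=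
    Ideal.iInf_pow_smul_eq_bot_of_isLocalRing _ (maximalIdeal.isMaximal R).ne_top
  rw [← Ideal.Quotient.eq_zero_iff_mem, ← Submodule.mem_bot R, ← hK, Submodule.mem_iInf]
  intro k
  obtain ⟨a, ha, b, hb, rfl⟩ := Submodule.mem_sup.mp (h k)
  rw [map_add, Ideal.Quotient.eq_zero_iff_mem.mpr ha, zero_add,
    show Ideal.Quotient.mk K b = b • (1 : R ⧸ K) by
      rw [Algebra.smul_def, mul_one]; rfl]
  exact Submodule.smul_mem_smul hb Submodule.mem_top

end Chevalley

variable {p : ℕ} [Fact p.Prime] {R : Type} [CommRing R] {A : ValuationSubring (AlgebraicClosure ℚ)}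
  {r : GQ →* Mat2 R}

/-- The levels with a finite flat model. -/
def Good (p : ℕ) (r : GQ →* Mat2 R) (I : Ideal R) : Prop := Finite (R ⧸ I) ∧ FlatLev p r I

/-- The kernel of the largest flat quotient. -/
def flatKer (p : ℕ) (r : GQ →* Mat2 R) : Ideal R := sInf {I | Good p r I}

theorem good_inf {I J : Ideal R} (hI : Good p r I) (hJ : Good p r J) : Good p r (I ⊓ J) := by
  haveI := hI.1
  haveI := hJ.1
  haveI : Finite (R ⧸ (I ⊓ J)) := by
    refine Finite.of_injective (fun x => (Ideal.Quotient.factor (inf_le_left : I ⊓ J ≤ I) x,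
      Ideal.Quotient.factor (inf_le_right : I ⊓ J ≤ J) x)) fun x y hxy => ?_
    obtain ⟨a, rfl⟩ := Ideal.Quotient.mk_surjective x
    obtain ⟨b, rfl⟩ := Ideal.Quotient.mk_surjective y
    simp only [Ideal.Quotient.factor_mk, Prod.mk.injEq, Ideal.Quotient.eq] at hxy
    exact Ideal.Quotient.eq.mpr hxy
  exact ⟨inferInstance, flatLev_inf hI.2 hJ.2⟩

theorem flatKer_le {I : Ideal R} [Finite (R ⧸ I)] (h : FlatLev p r I) : flatKer p r ≤ I :=
  sInf_le ⟨inferInstance, h⟩

/-- The levels above the flat kernel are flat. -/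
theorem flatLev_of_flatKer_le [IsLocalRing R] [IsNoetherianRing R]
    [IsAdicComplete (maximalIdeal R) R] [Finite (ResidueField R)] (h : OrdAt p A r) {I : Ideal R}
    [Finite (R ⧸ I)] (hI : flatKer p r ≤ I) : FlatLev p r I := by
  haveI : Subsingleton (R ⧸ (⊤ : Ideal R)) := Ideal.Quotient.subsingleton_iff.mpr rfl
  have htop : Good p r ⊤ := by
    obtain ⟨c, hc⟩ := exists_isKClass h (I := (⊤ : Ideal R)) (n := 0) Submodule.mem_top
    rw [Subsingleton.elim c 0] at hc
    exact ⟨inferInstance, flatLev_of_isKClass h Submodule.mem_top hc⟩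
  obtain ⟨G, hG, hle⟩ := exists_mem_le (Good p r) (fun G h => h.1) htop
    (fun G G' => good_inf) I hI
  haveI := hG.1
  exact flatLev_mono hle hG.2

section Point

variable {O : Type} [CommRing O] [IsDomain O] [IsDiscreteValuationRing O] [Finite (ResidueField O)]
  [CharZero O] [IsLocalRing R] [IsNoetherianRing R] [IsAdicComplete (maximalIdeal R) R]
  [Algebra O R] [Module.Finite O R]

variable (O) in
include O in
theorem finite_quotient_span_natCast {m : ℕ} (hm : m ≠ 0) :
    Finite (R ⧸ Ideal.span {((m : ℕ) : R)}) := by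
  obtain ⟨ϖ, hϖ⟩ := IsDiscreteValuationRing.exists_irreducible O
  obtain ⟨e, u, he⟩ := IsDiscreteValuationRing.eq_unit_mul_pow_irreducible
    (Nat.cast_ne_zero (R := O).mpr hm) hϖ
  have hspan : Ideal.span {((m : ℕ) : O)} = maximalIdeal O ^ e := by
    rw [he, Ideal.span_singleton_mul_left_unit u.isUnit, hϖ.maximalIdeal_eq, Ideal.span_singleton_pow]
  haveI : Finite (O ⧸ maximalIdeal O) := inferInstanceAs (Finite (ResidueField O))
  haveI : Finite (O ⧸ Ideal.span {((m : ℕ) : O)}) := by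
    rw [hspan]
    exact Ideal.finite_quotient_pow (maximalIdeal O).fg_of_isNoetherianRing e
  have hmap : Ideal.span {((m : ℕ) : R)} = (Ideal.span {((m : ℕ) : O)}).map (algebraMap O R) := by
    rw [Ideal.map_span, Set.image_singleton, map_natCast]
  rw [hmap]
  exact Module.finite_of_finite (O ⧸ Ideal.span {((m : ℕ) : O)})

/-- The flat kernel lies in the span of one element of `℘` killed by `α² - 1` modulo `℘²`. -/
theorem exists_flatKer_le (h : OrdAt p A r) (hp : (p : O) ∈ maximalIdeal O)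
    (hpR : (p : R) ∈ maximalIdeal R) (π : R →ₐ[O] O) {φ : GQ}
    (hφ : φ ∈ A.decompositionSubgroup ℚ) {α : O} (hα : π (r φ 1 1) = α) (hγ : α ^ 2 - 1 ≠ 0) :
    ∃ a : R, π a = 0 ∧ (α ^ 2 - 1) • a ∈ RingHom.ker π.toRingHom ^ 2 ∧
      flatKer p r ≤ RingHom.ker π.toRingHom ^ 2 ⊔ Ideal.span {a} := by
  haveI : Finite (ResidueField R) := by
    haveI := finite_quotient_span_natCast O (R := R) (Fact.out : p.Prime).ne_zero
    exact Finite.of_surjective
      (Ideal.Quotient.factor ((Ideal.span_singleton_le_iff_mem _).mpr hpR) :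
        R ⧸ Ideal.span {(p : R)} → R ⧸ maximalIdeal R)
      (Ideal.Quotient.factor_surjective _)
  set P := RingHom.ker π.toRingHom with hP
  set γ := α ^ 2 - 1 with hγdef
  let pn : ℕ → Ideal R := fun n => Ideal.span {((p ^ n : ℕ) : R)}
  let I : ℕ → Ideal R := fun n => P ^ 2 ⊔ pn n
  have hfin : ∀ J n, pn n ≤ J → Finite (R ⧸ J) := fun J n hJ => by
    haveI := finite_quotient_span_natCast O (R := R)
      (m := p ^ n) (pow_ne_zero n (Fact.out : p.Prime).ne_zero)
    exact Finite.of_surjective _ (Ideal.Quotient.factor_surjective hJ)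
  haveI hfinI : ∀ n, Finite (R ⧸ I n) := fun n => hfin _ n le_sup_right
  have hpI : ∀ n, ((p ^ n : ℕ) : R) ∈ I n := fun n =>
    Submodule.mem_sup_right (Ideal.mem_span_singleton_self _)
  have hpn_anti : ∀ n, pn (n + 1) ≤ pn n := fun n =>
    Ideal.span_singleton_le_span_singleton.mpr (by
      rw [Nat.cast_pow, Nat.cast_pow]; exact pow_dvd_pow _ (Nat.le_succ n))
  choose c hc using fun n => exists_isKClass h (I := I n) (n := n) (hpI n)
  choose a ha using fun n => Ideal.Quotient.mk_surjective (c n)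
  have hcompat : ∀ n, a (n + 1) - a n ∈ I n := by
    intro n
    have hle : I (n + 1) ≤ I n := sup_le_sup_left (hpn_anti n) _
    have h1 := ((hc (n + 1)).factor h hle).of_succ.unique h (hpI n) (hc n)
    rwa [← ha n, ← ha (n + 1), Ideal.Quotient.factor_mk, Ideal.Quotient.eq] at h1
  have hkill : ∀ n, (r φ 1 1 ^ 2 - 1) * a n ∈ I n := by
    intro n
    rw [← Ideal.Quotient.eq_zero_iff_mem, map_mul, ha, map_sub, map_pow, map_one, sub_mul, one_mul,
      sub_eq_zero]
    exact (hc n).smul_eq h (hpI n) hφ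
  -- the images in `O`
  let qn : ℕ → Ideal O := fun n => Ideal.span {((p ^ n : ℕ) : O)}
  have hPmap : ∀ n {x : R}, x ∈ I n → π x ∈ qn n := by
    intro n x hx
    obtain ⟨s, hs, t, ht, rfl⟩ := Submodule.mem_sup.mp hx
    obtain ⟨d, rfl⟩ := Ideal.mem_span_singleton'.mp ht
    have h0 : π s = 0 := RingHom.mem_ker.mp (Ideal.pow_le_self two_ne_zero hs)
    rw [map_add, h0, zero_add, map_mul, map_natCast]
    exact Ideal.mul_mem_left _ _ (Ideal.mem_span_singleton_self _)
  obtain ⟨e, he⟩ : ∃ e, γ ∣ ((p ^ e : ℕ) : O) := by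
    obtain ⟨ϖ, hϖ⟩ := IsDiscreteValuationRing.exists_irreducible O
    obtain ⟨e, u, he⟩ := IsDiscreteValuationRing.eq_unit_mul_pow_irreducible hγ hϖ
    refine ⟨e, ?_⟩
    rw [he, Nat.cast_pow, Units.mul_left_dvd]
    exact pow_dvd_pow_of_dvd (Ideal.mem_span_singleton.mp (hϖ.maximalIdeal_eq ▸ hp)) e
  have hπa : ∀ n, π (a n) ∈ qn n := by
    intro n
    have hdiff : ∀ j, π (a (n + j)) - π (a n) ∈ qn n := by
      intro j
      induction j with
      | zero => rw [Nat.add_zero, sub_self]; exact zero_mem _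
      | succ j ih =>
        have h1 : qn (n + j) ≤ qn n := Ideal.span_singleton_le_span_singleton.mpr (by
          rw [Nat.cast_pow, Nat.cast_pow]; exact pow_dvd_pow _ (Nat.le_add_right n j))
        have h2 := add_mem (h1 (hPmap _ (hcompat (n + j)))) ih
        rwa [map_sub, sub_add_sub_cancel, Nat.add_assoc] at h2
    have h1 := hPmap _ (hkill (n + e))
    rw [map_mul, map_sub, map_pow, hα, map_one, ← hγdef, Ideal.mem_span_singleton] at h1
    have h2 : ((p ^ n : ℕ) : O) ∣ π (a (n + e)) := by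
      obtain ⟨d, hd⟩ := he
      obtain ⟨k, hk⟩ := h1
      refine ⟨k * d, mul_left_cancel₀ hγ ?_⟩
      rw [hk, pow_add, Nat.cast_mul, hd]
      ring
    have h3 := sub_mem (Ideal.mem_span_singleton.mpr h2) (hdiff e)
    rwa [sub_sub_cancel] at h3
  -- lifts in `℘`
  let a' : ℕ → R := fun n => a n - algebraMap O R (π (a n))
  have ha'P : ∀ n, a' n ∈ P := fun n => RingHom.mem_ker.mpr (by
    show π _ = 0
    rw [map_sub, AlgHom.commutes]
    exact sub_self _)
  have ha'I : ∀ n, a' n - a n ∈ pn n := fun n => by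
    obtain ⟨d, hd⟩ := Ideal.mem_span_singleton'.mp (hπa n)
    refine Ideal.mem_span_singleton'.mpr ⟨-algebraMap O R d, ?_⟩
    show _ = a n - algebraMap O R (π (a n)) - a n
    rw [← hd, map_mul, map_natCast]
    ring
  -- make successive differences divisible by `p ^ n`
  have hstep : ∀ n b, b ∈ P ∧ b - a n ∈ I n →
      ∃ b', (b' ∈ P ∧ b' - a (n + 1) ∈ I (n + 1)) ∧ b' - b ∈ pn n := by
    intro n b hb
    have h1 : a' (n + 1) - b ∈ I n := by
      have h2 := sub_mem (add_mem (Submodule.mem_sup_right (S := P ^ 2) (hpn_anti n (ha'I (n + 1))))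
        (hcompat n)) hb.2
      rwa [show a' (n + 1) - a (n + 1) + (a (n + 1) - a n) - (b - a n) = a' (n + 1) - b by ring]
        at h2
    obtain ⟨s, hs, t, ht, hst⟩ := Submodule.mem_sup.mp h1
    refine ⟨a' (n + 1) - s, ⟨sub_mem (ha'P _) (Ideal.pow_le_self two_ne_zero hs), ?_⟩, ?_⟩
    · rw [show a' (n + 1) - s - a (n + 1) = -s + (a' (n + 1) - a (n + 1)) by ring]
      exact Submodule.add_mem_sup (neg_mem hs) (ha'I _)
    · rwa [show a' (n + 1) - s - b = t by rw [eq_sub_iff_add_eq'.mpr hst]; ring]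
  choose! nxt hnxt hnxt' using hstep
  let b : ℕ → R := fun n => Nat.rec (a' 0) (fun i y => nxt i y) n
  have hb : ∀ n, b n ∈ P ∧ b n - a n ∈ I n := by
    intro n
    induction n with
    | zero => exact ⟨ha'P 0, Submodule.mem_sup_right (ha'I 0)⟩
    | succ n ih => exact hnxt n _ ih
  have hpn_le : ∀ n, pn n ≤ maximalIdeal R ^ n := fun n => by
    rw [Ideal.span_singleton_le_iff_mem, Nat.cast_pow]
    exact Ideal.pow_mem_pow hpR n
  have hbdiff : ∀ n j, b (n + j) - b n ∈ pn n := by
    intro n j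
    induction j with
    | zero => rw [Nat.add_zero, sub_self]; exact zero_mem _
    | succ j ih =>
      have h1 : pn (n + j) ≤ pn n := Ideal.span_singleton_le_span_singleton.mpr (by
        rw [Nat.cast_pow, Nat.cast_pow]; exact pow_dvd_pow _ (Nat.le_add_right n j))
      have h2 := add_mem (h1 (hnxt' (n + j) _ (hb (n + j)))) ih
      rwa [sub_add_sub_cancel] at h2
  obtain ⟨y, hy⟩ := IsPrecomplete.prec
    (inferInstance : IsPrecomplete (maximalIdeal R) R) (f := b) (fun {i j} hij => by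
      obtain ⟨k, rfl⟩ := Nat.exists_eq_add_of_le hij
      rw [SModEq.sub_mem, smul_eq_mul, Ideal.mul_top, ← neg_sub]
      exact neg_mem (hpn_le i (hbdiff i k)))
  have hyb : ∀ n, y - b n ∈ pn n := fun n => mem_of_forall_mem_sup_pow fun k => by
    have h1 := SModEq.sub_mem.mp (hy (n + k))
    rw [smul_eq_mul, Ideal.mul_top] at h1
    rw [show y - b n = (b (n + k) - b n) + -(b (n + k) - y) by ring]
    exact Submodule.add_mem_sup (hbdiff n k)
      (neg_mem (Ideal.pow_le_pow_right (Nat.le_add_left k n) h1))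
  have hclass : ∀ n, y - a n ∈ I n := fun n => by
    rw [← sub_add_sub_cancel y (b n) (a n)]
    exact add_mem (Submodule.mem_sup_right (hyb n)) (hb n).2
  have hlim : ∀ {K : Ideal R} {x : R}, (∀ n, x ∈ K ⊔ pn n) → x ∈ K := fun hx =>
    mem_of_forall_mem_sup_pow fun k => (sup_le_sup_left (hpn_le k) _) (hx k)
  have hyP : y ∈ P := hlim fun n => by
    rw [← sub_add_cancel y (b n)]
    exact add_mem (Submodule.mem_sup_right (hyb n)) (Submodule.mem_sup_left (hb n).1)
  refine ⟨y, hyP, hlim fun n => ?_, fun x hx => hlim fun n => ?_⟩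
  · have h1 : (r φ 1 1 ^ 2 - 1) * y ∈ I n := by
      rw [show (r φ 1 1 ^ 2 - 1) * y =
        (r φ 1 1 ^ 2 - 1) * (y - a n) + (r φ 1 1 ^ 2 - 1) * a n by ring]
      exact add_mem (Ideal.mul_mem_left _ _ (hclass n)) (hkill n)
    have h2 : algebraMap O R γ - (r φ 1 1 ^ 2 - 1) ∈ P := RingHom.mem_ker.mpr (by
      show π _ = 0
      rw [map_sub, AlgHom.commutes, map_sub π (r φ 1 1 ^ 2) 1, map_pow, hα, map_one]
      exact sub_self _)
    rw [Algebra.smul_def, show algebraMap O R γ * y =
      (algebraMap O R γ - (r φ 1 1 ^ 2 - 1)) * y + (r φ 1 1 ^ 2 - 1) * y by ring]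
    refine add_mem (Submodule.mem_sup_left ?_) h1
    rw [pow_two]
    exact Ideal.mul_mem_mul h2 hyP
  · have hle : I n ≤ P ^ 2 ⊔ Ideal.span {y} ⊔ pn n := sup_le_sup_right le_sup_left _
    haveI := hfin (P ^ 2 ⊔ Ideal.span {y} ⊔ pn n) n le_sup_right
    have h0 : Ideal.Quotient.factor hle (c n) = 0 := by
      rw [← ha, Ideal.Quotient.factor_mk, Ideal.Quotient.eq_zero_iff_mem,
        show a n = y - (y - a n) by ring]
      exact sub_mem (Submodule.mem_sup_left (Submodule.mem_sup_right (Ideal.mem_span_singleton_self y)))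
        (hle (hclass n))
    have h1 := (hc n).factor h hle
    rw [h0] at h1
    exact flatKer_le (flatLev_of_isKClass h (hle (hpI n)) h1) hx

end Point

end Fermat.Agent.R59.Phi
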