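/-
S59, unit H: quotients of lifts, pushforwards of their matrices, and determinants.
-/
import Fermat.Agent.R59.Phi.FlatLocus
import Fermat.Agent.R59.Defs
import Fermat.Agent.GD.TW56.BaseChange
import Fermat.Agent.Deform.TraceEquiv
import Fermat.Prelude.Thm_IsLocalRing_isAdicComplete_of_module_finite

set_option autoImplicit false
set_option linter.style.haveILetI false
set_option linter.unusedSectionVars false

noncomputable section

namespace Fermat.Agent.R59.Phi

open IsLocalRing Matrix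
open Fermat.Agent.Galois (GQ)
open Fermat.Agent.Deform (Mat2 mapHom HasMatrix RHasMatrix TraceNondeg)
open scoped TensorProduct

local notation "ℚb" => AlgebraicClosure ℚ

/-- Ordinary representations stay ordinary under base change. -/
theorem isOrdinaryAt_baseChange {A B : Type} [CommRing A] [IsLocalRing A] [CommRing B]
    [IsLocalRing B] (φ : A →+* B) (hφ : IsLocalHom φ) {ρ : GaloisRepAdic A} {p : ℕ}
    (h : ρ.IsOrdinaryAt p) : (ρ.baseChangeAlong φ hφ).IsOrdinaryAt p := by
  letI : Algebra A B := φ.toAlgebra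
  intro P hP
  obtain ⟨L, ⟨b, rfl⟩, hD, hI⟩ := h P hP
  let b' : Module.Basis (Fin 2) B (B ⊗[A] ρ.V) := Algebra.TensorProduct.basis B b
  have hb' : b' 0 = (1 : B) ⊗ₜ[A] b 0 := Algebra.TensorProduct.basis_apply ..
  have hmem : ∀ (c : B) (v : ρ.V), v ∈ A ∙ b 0 → c ⊗ₜ[A] v ∈ B ∙ b' 0 := fun c v hv => by
    obtain ⟨x, rfl⟩ := Submodule.mem_span_singleton.mp hv
    refine Submodule.mem_span_singleton.mpr ⟨φ x * c, ?_⟩
    rw [hb', TensorProduct.smul_tmul', smul_eq_mul, mul_one, TensorProduct.tmul_smul,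
      TensorProduct.smul_tmul', Algebra.smul_def]
    rfl
  refine ⟨B ∙ b' 0, ⟨b', rfl⟩, fun σ hσ v hv => ?_, fun σ hσ v => ?_⟩
  · obtain ⟨c, rfl⟩ := Submodule.mem_span_singleton.mp hv
    show (ρ.ρ σ).baseChange B (c • b' 0) ∈ _
    rw [map_smul, hb', LinearMap.baseChange_tmul]
    exact Submodule.smul_mem _ _ (hb' ▸ hmem 1 _ (hD σ hσ _ (Submodule.mem_span_singleton_self _)))
  · suffices key : ∀ w : B ⊗[A] ρ.V, (ρ.ρ σ).baseChange B w - w ∈ B ∙ b' 0 from key v
    intro v
    induction v using TensorProduct.induction_on with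
    | zero => simp
    | tmul c w =>
      rw [LinearMap.baseChange_tmul, ← TensorProduct.tmul_sub]
      exact hmem c _ (hI σ hσ w)
    | add x y hx hy =>
      rw [map_add, add_sub_add_comm]
      exact add_mem hx hy

/-- Nondegeneracy passes along isomorphisms of fields. -/
theorem nondeg_map {k k' : Type} [Field k] [Field k'] (ψ : k →+* k') (hψ : Function.Surjective ψ)
    {r : GQ →* Mat2 k} (h : TraceNondeg r) : TraceNondeg ((mapHom ψ).comp r) := by
  let e := RingEquiv.ofBijective ψ ⟨ψ.injective, hψ⟩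
  refine TraceNondeg.of_map e.symm.toRingHom _ ?_
  have : e.symm.toRingHom.mapMatrix.toMonoidHom.comp ((mapHom ψ).comp r) = r := by
    refine MonoidHom.ext fun σ => ?_
    ext i j
    exact e.symm_apply_apply _
  rw [this]
  exact h

variable {p : ℕ} [Fact p.Prime]

/-- The determinant of the matrix of a representation of cyclotomic determinant. -/
theorem det_sub_mem {R : Type} [CommRing R] [IsLocalRing R] {ρ : GaloisRepAdic R}
    (hd : ρ.DetIsCyclotomic p) {r : GQ →* Mat2 R} (hr : HasMatrix ρ r) (n : ℕ) (σ : GQ) (a : ℕ)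
    (ha : ∀ μ : ℚb, μ ^ p ^ n = 1 → σ μ = μ ^ a) :
    (r σ).det - (a : R) ∈ Ideal.span {((p ^ n : ℕ) : R)} := by
  obtain ⟨b, hb⟩ := hr
  rw [← hb σ, LinearMap.det_toMatrix]
  exact hd.2 n σ a ha

/-- Separatedness of the `p`-adic filtration. -/
theorem eq_of_forall_sub_mem_span {R : Type} [CommRing R] [IsLocalRing R] [IsNoetherianRing R]
    (hp : (p : R) ∈ maximalIdeal R) {x y : R}
    (h : ∀ n, x - y ∈ Ideal.span {((p ^ n : ℕ) : R)}) : x = y := by
  rw [← sub_eq_zero, ← Submodule.mem_bot R,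
    ← Ideal.iInf_pow_eq_bot_of_isLocalRing (maximalIdeal R) (maximalIdeal.isMaximal R).ne_top,
    Submodule.mem_iInf]
  intro k
  refine (Ideal.span_singleton_le_iff_mem _).mpr ?_ (h k)
  rw [Nat.cast_pow]
  exact Ideal.pow_mem_pow hp k

/-- The determinant at an element acting on the `p`-power roots of unity as `μ ↦ μ ^ m`. -/
theorem det_eq_natCast {R : Type} [CommRing R] [IsLocalRing R] [IsNoetherianRing R]
    {ρ : GaloisRepAdic R} (hd : ρ.DetIsCyclotomic p) {r : GQ →* Mat2 R} (hr : HasMatrix ρ r)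
    {σ : GQ} {m : ℕ} (hσ : (GalRep.cyc p σ).val = (m : ℤ_[p])) : (r σ).det = (m : R) :=
  eq_of_forall_sub_mem_span hd.1 fun n => det_sub_mem hd hr n σ m fun μ hμ => by
    have h1 := GalRep.cyc_spec p σ μ hμ
    rwa [hσ, map_natCast, ZMod.val_natCast, ← pow_eq_pow_mod m hμ] at h1

variable {O : Type} [CommRing O] [IsDomain O] [IsDiscreteValuationRing O]
  [IsAdicComplete (maximalIdeal O) O] [Finite (ResidueField O)]
  [Algebra ℤ_[p] O] [Module.Finite ℤ_[p] O] [CharZero O]
  {ρbar : ResidualGaloisRep (ResidueField O)}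

/-- The map of residue fields of a lift is onto. -/
theorem residueMap_surjective (X : Lift p O ρbar) :
    Function.Surjective (ResidueField.map (algebraMap O X.R)) := fun y => by
  obtain ⟨c, hc⟩ := X.residue_surjective y
  exact ⟨residue O c, (ResidueField.map_residue _ _).trans hc⟩

/-- A matrix of a lift, with its residual matrix. -/
theorem exists_lift_matrix (X : Lift p O ρbar)
    {rbar : GQ →* Mat2 (ResidueField O)} (hb : RHasMatrix ρbar rbar) :
    ∃ r : GQ →* Mat2 X.R, HasMatrix X.ρ r ∧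
      ∀ σ, (r σ).map (residue X.R) = (rbar σ).map (ResidueField.map (algebraMap O X.R)) :=
  Deform.exists_hasMatrix_lifting X.ρ (hb.baseChangeAlong _) X.residual

/-- A morphism of lifts onto generators is surjective. -/
theorem isHom_surjective {X Y : Lift p O ρbar} {σ : X.R →ₐ[O] Y.R} (h : X.IsHom Y σ) :
    Function.Surjective σ := by
  rw [← AlgHom.range_eq_top, eq_top_iff, ← Y.adjoin_trace]
  exact Algebra.adjoin_le (by rintro _ ⟨τ, rfl⟩; exact ⟨_, h τ⟩)

/-- A morphism of lifts carries a matrix of the source to one of the target. -/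
theorem hasMatrix_push (habs : ρbar.IsAbsolutelyIrreducible) {X Y : Lift p O ρbar}
    {σ : X.R →ₐ[O] Y.R} (h : X.IsHom Y σ) {r : GQ →* Mat2 X.R} (hr : HasMatrix X.ρ r) :
    HasMatrix Y.ρ ((mapHom σ.toRingHom).comp r) := by
  haveI hloc : IsLocalHom σ.toRingHom := IsLocalHom.of_surjective _ (isHom_surjective h)
  let b := Module.finBasisOfFinrankEq (ResidueField O) ρbar.V ρbar.finrank_eq
  have hb : RHasMatrix ρbar ((LinearMap.toMatrixAlgEquiv b).toMonoidHom.comp ρbar.ρ) :=
    ⟨b, fun _ => rfl⟩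
  obtain ⟨rY, hrY, hres⟩ := exists_lift_matrix Y hb
  have hbc : HasMatrix (X.ρ.baseChangeAlong σ.toRingHom hloc) ((mapHom σ.toRingHom).comp r) :=
    hr.baseChangeAlong σ.toRingHom hloc
  have htr : ∀ g, (rY g).trace = (((mapHom σ.toRingHom).comp r) g).trace := fun g => by
    rw [← hrY.trace_eq, ← h g, hr.trace_eq, Matrix.trace_fin_two, Matrix.trace_fin_two, map_add]
    rfl
  obtain ⟨U, hU⟩ := Deform.exists_conj_of_trace_eq'
    (rbar := (mapHom (ResidueField.map (algebraMap O Y.R))).comp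
      ((LinearMap.toMatrixAlgEquiv b).toMonoidHom.comp ρbar.ρ))
    (nondeg_map _ (residueMap_surjective Y) (hb.traceNondeg habs))
    (π := residue Y.R)
    (fun a ha => notMem_maximalIdeal.mp fun h => ha ((residue_eq_zero_iff a).mpr h))
    (r := rY) (r' := (mapHom σ.toRingHom).comp r) hres htr
  exact hbc.of_equiv ((hbc.conj U hU).isEquiv hrY)

variable (Y : Lift p O ρbar) (J : Ideal Y.R)

theorem residual_quot [IsLocalRing (Y.R ⧸ J)] [IsLocalHom (algebraMap O (Y.R ⧸ J))]
    (hmk : IsLocalHom (Ideal.Quotient.mk J)) :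
    (Y.ρ.baseChangeAlong (Ideal.Quotient.mk J) hmk).residual.IsEquiv
        (ρbar.baseChangeAlong (ResidueField.map (algebraMap O (Y.R ⧸ J)))) := by
  haveI := hmk
  let b := Module.finBasisOfFinrankEq (ResidueField O) ρbar.V ρbar.finrank_eq
  have hb : RHasMatrix ρbar ((LinearMap.toMatrixAlgEquiv b).toMonoidHom.comp ρbar.ρ) :=
    ⟨b, fun _ => rfl⟩
  obtain ⟨r, hr, hres⟩ := exists_lift_matrix Y hb
  have h1 := (hr.baseChangeAlong (Ideal.Quotient.mk J) hmk).residual
  have heq : (mapHom (residue (Y.R ⧸ J))).comp ((mapHom (Ideal.Quotient.mk J)).comp r) =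
      (mapHom (ResidueField.map (algebraMap O (Y.R ⧸ J)))).comp
        ((LinearMap.toMatrixAlgEquiv b).toMonoidHom.comp ρbar.ρ) := by
    refine MonoidHom.ext fun σ => ?_
    ext i j
    have h2 := congrArg (ResidueField.map (Ideal.Quotient.mk J)) (congrFun (congrFun (hres σ) i) j)
    simp only [Matrix.map_apply, ResidueField.map_residue] at h2
    show residue (Y.R ⧸ J) (Ideal.Quotient.mk J (r σ i j)) = _
    rw [h2, ResidueField.map_map]
    rfl
  rw [heq] at h1
  exact h1.isEquiv (hb.baseChangeAlong _)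

/-- The quotient of a lift by a proper ideal. -/
def quotLift (hJ : J ≠ ⊤) : Lift p O ρbar :=
  haveI : Nontrivial (Y.R ⧸ J) := Ideal.Quotient.nontrivial_iff.mpr hJ
  haveI : IsLocalRing (Y.R ⧸ J) :=
    IsLocalRing.of_surjective' (Ideal.Quotient.mk J) Ideal.Quotient.mk_surjective
  haveI hmk : IsLocalHom (Ideal.Quotient.mk J) :=
    IsLocalHom.of_surjective _ Ideal.Quotient.mk_surjective
  haveI : IsLocalHom (algebraMap O (Y.R ⧸ J)) :=
    ⟨fun a ha => IsLocalHom.map_nonunit (f := algebraMap O Y.R) a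
      (IsLocalHom.map_nonunit (f := Ideal.Quotient.mk J) _ ha)⟩
  haveI : Module.Finite O (Y.R ⧸ J) :=
    Module.Finite.of_surjective (Ideal.Quotient.mkₐ O J).toLinearMap Ideal.Quotient.mk_surjective
  haveI : IsAdicComplete (maximalIdeal (Y.R ⧸ J)) (Y.R ⧸ J) :=
    P2MW.S_IsLocalRing_isAdicComplete_of_module_finite.solution (𝒪 := O) (T := Y.R ⧸ J)
  { R := Y.R ⧸ J
    residue_surjective := fun y => by
      obtain ⟨z, rfl⟩ := residue_surjective y
      obtain ⟨x, rfl⟩ := Ideal.Quotient.mk_surjective z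
      obtain ⟨c, hc⟩ := Y.residue_surjective (residue Y.R x)
      refine ⟨c, ?_⟩
      have h1 := congrArg (ResidueField.map (Ideal.Quotient.mk J)) hc
      simp only [Function.comp_apply, ResidueField.map_residue] at h1
      exact h1
    ρ := Y.ρ.baseChangeAlong (Ideal.Quotient.mk J) hmk
    residual := residual_quot Y J hmk
    adjoin_trace := by
      have h1 : ∀ g, (Y.ρ.baseChangeAlong (Ideal.Quotient.mk J) hmk).trace g =
          Ideal.Quotient.mkₐ O J (Y.ρ.trace g) := fun g => by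
        obtain ⟨r, hr⟩ := Deform.exists_hasMatrix Y.ρ
        rw [hr.trace_eq, (hr.baseChangeAlong (Ideal.Quotient.mk J) hmk).trace_eq,
          Matrix.trace_fin_two, Matrix.trace_fin_two, map_add]
        rfl
      have h2 : Set.range (Y.ρ.baseChangeAlong (Ideal.Quotient.mk J) hmk).trace =
          Ideal.Quotient.mkₐ O J '' Set.range Y.ρ.trace := by
        rw [← Set.range_comp]
        exact congrArg Set.range (funext h1)
      rw [h2, ← AlgHom.map_adjoin, Y.adjoin_trace, Algebra.map_top, AlgHom.range_eq_top]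
      exact Ideal.Quotient.mkₐ_surjective O J
    det_cyclotomic := TW56.detIsCyclotomic_baseChange (hφ := hmk) Y.det_cyclotomic }

/-- The projection to a quotient lift. -/
def quotProj (hJ : J ≠ ⊤) : Y.R →ₐ[O] (quotLift Y J hJ).R := Ideal.Quotient.mkₐ O J

theorem quotProj_surjective (hJ : J ≠ ⊤) : Function.Surjective (quotProj Y J hJ) :=
  Ideal.Quotient.mkₐ_surjective O J

theorem isHom_quotProj (hJ : J ≠ ⊤) : Y.IsHom (quotLift Y J hJ) (quotProj Y J hJ) := fun g => by
  obtain ⟨r, hr⟩ := Deform.exists_hasMatrix Y.ρ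
  haveI : Nontrivial (Y.R ⧸ J) := Ideal.Quotient.nontrivial_iff.mpr hJ
  haveI : IsLocalRing (Y.R ⧸ J) :=
    IsLocalRing.of_surjective' (Ideal.Quotient.mk J) Ideal.Quotient.mk_surjective
  show _ = (Y.ρ.baseChangeAlong (Ideal.Quotient.mk J)
    (IsLocalHom.of_surjective _ Ideal.Quotient.mk_surjective)).trace g
  rw [hr.trace_eq, (hr.baseChangeAlong (Ideal.Quotient.mk J)
    (IsLocalHom.of_surjective _ Ideal.Quotient.mk_surjective)).trace_eq,
    Matrix.trace_fin_two, Matrix.trace_fin_two, map_add]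
  rfl

end Fermat.Agent.R59.Phi
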