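/-
S59, unit H: lengths of submodules read at finite levels, and the length of the span of a solution of
a nonsingular linear system.
-/
import Fermat.Agent.R59.Crit.Intersection

set_option autoImplicit false
set_option linter.style.haveILetI false
set_option linter.unusedSectionVars false

noncomputable section

namespace Fermat.Agent.R59.Phi

variable {O : Type} [CommRing O] {C : Type} [AddCommGroup C] [Module O C]

/-- A bound at all levels of a separated filtration bounds the length. -/
theorem length_le_of_forall_level (S : Submodule O C) (N : ℕ → Submodule O C) (hN : Antitone N)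
    (hbot : ⨅ k, N k = ⊥) (b : ℕ∞)
    (hb : ∀ k, Module.length O (S.map (N k).mkQ) ≤ b) : Module.length O S ≤ b := by
  classical
  rcases eq_or_ne b ⊤ with rfl | hbtop
  · exact le_top
  obtain ⟨n, rfl⟩ := ENat.ne_top_iff_exists.mp hbtop
  let f : ℕ → ℕ := fun k => (Module.length O (S.map (N k).mkQ)).toNat
  have hf : ∀ k, (f k : ℕ∞) = Module.length O (S.map (N k).mkQ) := fun k =>
    ENat.natCast_toNat (ne_top_of_le_ne_top hbtop (hb k))
  have hfn : ∀ k, f k ≤ n := fun k => by
    have := hb k
    rwa [← hf, Nat.cast_le] at this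
  obtain ⟨k₀, hk₀⟩ : ∃ k₀, ∀ k, f k ≤ f k₀ := by
    let P : ℕ → Prop := fun v => ∃ k, f k = v
    obtain ⟨k₀, hk₀⟩ : P (Nat.findGreatest P n) :=
      Nat.findGreatest_spec (P := P) (hfn 0) ⟨0, rfl⟩
    exact ⟨k₀, fun k => hk₀ ▸ Nat.le_findGreatest (hfn k) ⟨k, rfl⟩⟩
  let proj : ∀ k, S →ₗ[O] (S.map (N k).mkQ) := fun k => (N k).mkQ.submoduleMap S
  have hproj : ∀ k, Function.Surjective (proj k) := fun k =>
    LinearMap.submoduleMap_surjective _ _
  have hker : ∀ k (x : S), proj k x = 0 ↔ (x : C) ∈ N k := fun k x => by
    rw [Subtype.ext_iff]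
    exact Submodule.Quotient.mk_eq_zero _
  have hinj : Function.Injective (proj k₀) := by
    rw [injective_iff_map_eq_zero]
    intro x hx
    suffices h : ∀ k, (x : C) ∈ N k by
      have h1 : (x : C) ∈ ⨅ k, N k := Submodule.mem_iInf _ |>.mpr h
      rw [hbot, Submodule.mem_bot] at h1
      exact Subtype.ext h1
    intro k
    set j := max k k₀
    have hle : N j ≤ N k₀ := hN (le_max_right _ _)
    let g : S.map (N j).mkQ →ₗ[O] S.map (N k₀).mkQ :=
      (Submodule.factor hle).restrict fun y hy => by
        obtain ⟨s, hs, rfl⟩ := Submodule.mem_map.mp hy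
        exact Submodule.mem_map.mpr ⟨s, hs, by simp⟩
    have hg : ∀ y, g (proj j y) = proj k₀ y := fun y => Subtype.ext (by simp [g, proj])
    have hgs : Function.Surjective g := fun y => by
      obtain ⟨z, rfl⟩ := hproj k₀ y
      exact ⟨_, hg z⟩
    let e : LinearMap.ker g →ₗ[O] S.map (N j).mkQ := (LinearMap.ker g).subtype
    have hexact := Module.length_eq_add_of_exact (R := O) (M := S.map (N j).mkQ)
      (N := LinearMap.ker g) (P := S.map (N k₀).mkQ) e g
      (Subtype.val_injective) hgs (LinearMap.exact_subtype_ker_map g)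
    have h0 : Module.length O (LinearMap.ker g) = 0 := by
      have h1 : Module.length O (LinearMap.ker g) + f k₀ ≤ f k₀ := by
        calc Module.length O (LinearMap.ker g) + f k₀ = f j := by rw [hf, hf]; exact hexact.symm
          _ ≤ _ := Nat.cast_le.mpr (hk₀ j)
      refine le_antisymm ?_ zero_le
      exact (ENat.add_le_add_iff_right (ENat.natCast_ne_top _)).mp (h1.trans_eq (zero_add _).symm)
    haveI := Module.length_eq_zero_iff.mp h0
    have h2 : proj j x ∈ LinearMap.ker g := by rw [LinearMap.mem_ker, hg, hx]
    have h3 : proj j x = 0 := congrArg Subtype.val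
      (Subsingleton.elim (⟨proj j x, h2⟩ : LinearMap.ker g) 0)
    exact hN (le_max_left _ _) ((hker j x).mp h3)
  rw [(LinearEquiv.ofBijective (proj k₀) ⟨hinj, hproj k₀⟩).length_eq]
  exact hb k₀

variable [IsDomain O] [IsDiscreteValuationRing O]

/-- The span of a solution of a nonsingular system has at most the length of the determinant. -/
theorem length_span_le_ord_det {n : ℕ} (M : Matrix (Fin n) (Fin n) O) (hM : M.det ≠ 0)
    (v : Fin n → C) (hv : ∀ i, ∑ j, M i j • v j = 0) :
    Module.length O (Submodule.span O (Set.range v)) ≤ Ring.ord O M.det := by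
  classical
  let f : (Fin n → O) →ₗ[O] C := Fintype.linearCombination O v
  have hrange : LinearMap.range f = Submodule.span O (Set.range v) :=
    Fintype.range_linearCombination O v
  have hle : LinearMap.range (Matrix.toLin' M.transpose) ≤ LinearMap.ker f := by
    rintro _ ⟨u, rfl⟩
    rw [LinearMap.mem_ker, Fintype.linearCombination_apply]
    calc ∑ j, (Matrix.toLin' M.transpose u) j • v j = ∑ j, ∑ i, u i • M i j • v j := by
          refine Finset.sum_congr rfl fun j _ => ?_
          rw [Matrix.toLin'_apply, Matrix.mulVec, dotProduct, Finset.sum_smul]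
          exact Finset.sum_congr rfl fun i _ => by rw [Matrix.transpose_apply, smul_smul, mul_comm]
      _ = ∑ i, u i • ∑ j, M i j • v j := by
          rw [Finset.sum_comm]
          exact Finset.sum_congr rfl fun i _ => (Finset.smul_sum).symm
      _ = 0 := by simp [hv]
  rw [← M.det_transpose, ← length_quotient_range_mulVec _ (by rwa [Matrix.det_transpose]),
    ← hrange, ← f.quotKerEquivRange.length_eq]
  exact Module.length_le_of_surjective (Submodule.factor hle) (Submodule.factor_surjective hle)

end Fermat.Agent.R59.Phi
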