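/-
S59, unit H: the entries of `ρ(τ) - 1` on inertia at `q ≠ p` in the cotangent space of an unramified
point span a module of length at most that of `O / gammaQ q t`.
-/
import Fermat.Agent.R59.Phi.FlatLocus
import Fermat.Agent.R59.Phi.Length
import Fermat.Agent.R59.Defs
import Fermat.Agent.Auto.Inertia.Tame

set_option autoImplicit false
set_option linter.style.haveILetI false
set_option linter.unusedSectionVars false

noncomputable section

namespace Fermat.Agent.R59.Phi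

open IsLocalRing Matrix
open Fermat.Agent.Galois
open Fermat.Agent.Deform (Mat2 mapHom)

local notation "ℚb" => AlgebraicClosure ℚ

/-- A homomorphism of finite level from inertia at `q`, killing the elements of `q`-power order at
that level, has cyclic image. -/
theorem exists_inertia_generator {q : ℕ} (hq : q.Prime) {A : ValuationSubring (AlgebraicClosure ℚ)}
    (hA : A.LiesOverPrime q) (L : IntermediateField ℚ ℚb) [FiniteDimensional ℚ L] [IsGalois ℚ L] :
    ∃ τ₀ ∈ A.inertiaSubgroupIn ℚ, ∀ τ ∈ A.inertiaSubgroupIn ℚ, ∃ i j : ℕ,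
      ∀ x ∈ L, ((τ * (τ₀ ^ i)⁻¹) ^ q ^ j) x = x := by
  set ϖ := GalRep.InertiaBase.rVal A L (GalRep.InertiaBase.rUnif (L := L) hq hA) with hϖdef
  have hϖ : ϖ ≠ 0 := GalRep.InertiaBase.rUnif_ne hq hA
  haveI := Auto.Tame.finite_range_tameHom (A := A) ϖ hϖ
  set Θ := (Auto.Tame.tameHom (A := A) ϖ hϖ).toHomUnits with hΘ
  obtain ⟨⟨u, τ₀, hτ₀⟩, hgen⟩ := IsCyclic.exists_generator (α := Θ.range)
  have hwild : ∀ w : A.inertiaSubgroup ℚ, Θ w = 1 →
      ∃ j : ℕ, ∀ x ∈ L, (((w : A.decompositionSubgroup ℚ) : GQ) ^ q ^ j) x = x := fun w hw =>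
    Auto.Tame.exists_pow_fix hq hA L w.2 fun x hxL hx0 => by
      obtain ⟨k, hk⟩ := GalRep.InertiaBase.exists_val_rFld hq hA
        (GalRep.InertiaBase.mem_rFld_of_mem A L hxL) hx0
      exact Auto.Tame.tameChar_eq_one_of_zpow w.2 hx0 hϖ hk (congrArg Units.val hw)
  let emb : A.inertiaSubgroup ℚ →* GQ :=
    (A.decompositionSubgroup ℚ).subtype.comp (A.inertiaSubgroup ℚ).subtype
  refine ⟨emb τ₀, ⟨_, τ₀.2, rfl⟩, ?_⟩
  rintro _ ⟨t, ht, rfl⟩
  obtain ⟨i, hi⟩ := mem_powers_iff_mem_zpowers.mpr (hgen ⟨Θ ⟨t, ht⟩, ⟨t, ht⟩, rfl⟩)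
  have hti : Θ (⟨t, ht⟩ * (τ₀ ^ i)⁻¹) = 1 := by
    rw [map_mul, map_inv, map_pow, hτ₀, mul_inv_eq_one]
    exact (congrArg Subtype.val hi).symm
  obtain ⟨j, hj⟩ := hwild _ hti
  refine ⟨i, j, fun x hx => ?_⟩
  show ((emb ⟨t, ht⟩ * (emb τ₀ ^ i)⁻¹) ^ q ^ j) x = x
  rw [← map_pow, ← map_inv, ← map_mul]
  exact hj x hx

section Cls

variable {O R : Type} [CommRing O] [CommRing R] [Algebra O R] (π : R →ₐ[O] O)

/-- The class in `℘ / ℘²` of an element, zero off `℘`. -/
def cls (u : R) : Cot π :=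
  haveI := Classical.propDecidable (u ∈ RingHom.ker π.toRingHom)
  if h : u ∈ RingHom.ker π.toRingHom then (RingHom.ker π.toRingHom).toCotangent ⟨u, h⟩ else 0

variable {π}

theorem cls_eq {u : R} (h : u ∈ RingHom.ker π.toRingHom) :
    cls π u = (RingHom.ker π.toRingHom).toCotangent ⟨u, h⟩ := dif_pos h

theorem cls_add {u v : R} (hu : u ∈ RingHom.ker π.toRingHom) (hv : v ∈ RingHom.ker π.toRingHom) :
    cls π (u + v) = cls π u + cls π v := by
  rw [cls_eq hu, cls_eq hv, cls_eq (add_mem hu hv), ← map_add]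
  rfl

theorem cls_mul (s : R) {u : R} (hu : u ∈ RingHom.ker π.toRingHom) :
    cls π (s * u) = π s • cls π u := by
  have h1 : (RingHom.ker π.toRingHom).toCotangent ⟨(s - algebraMap O R (π s)) * u,
      Ideal.mul_mem_left _ _ hu⟩ = 0 := by
    rw [Ideal.toCotangent_eq_zero, pow_two]
    refine Ideal.mul_mem_mul (RingHom.mem_ker.mpr ?_) hu
    show π _ = 0
    rw [map_sub, AlgHom.commutes]
    exact sub_self _
  rw [cls_eq hu, cls_eq (Ideal.mul_mem_left _ _ hu), ← LinearMap.map_smul_of_tower,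
    ← sub_eq_zero, ← map_sub, ← h1]
  refine congrArg _ (Subtype.ext ?_)
  show s * u - π s • u = (s - algebraMap O R (π s)) * u
  rw [Algebra.smul_def, sub_mul]

theorem cls_eq_zero {u : R} (hu : u ∈ RingHom.ker π.toRingHom ^ 2) : cls π u = 0 := by
  rw [cls_eq (Ideal.pow_le_self two_ne_zero hu), Ideal.toCotangent_eq_zero]
  exact hu

end Cls

variable {p : ℕ} [Fact p.Prime] {O : Type} [CommRing O] [IsDomain O] [IsDiscreteValuationRing O]
  [Finite (ResidueField O)] [CharZero O] {R : Type} [CommRing R] [IsLocalRing R]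
  [IsNoetherianRing R] [IsAdicComplete (maximalIdeal R) R] [Algebra O R] [Module.Finite O R]

variable {π : R →ₐ[O] O}

/-- The filtration `p ^ k • ℘/℘²`. -/
abbrev cotLevel (p : ℕ) (π : R →ₐ[O] O) (k : ℕ) : Submodule O (Cot π) :=
  Ideal.span {((p ^ k : ℕ) : O)} • ⊤

theorem cls_mem_level {k : ℕ} {u : R} (hu : u ∈ RingHom.ker π.toRingHom)
    (hu' : u ∈ RingHom.ker π.toRingHom ^ 2 ⊔ Ideal.span {((p ^ k : ℕ) : R)}) :
    cls π u ∈ cotLevel p π k := by
  obtain ⟨s, hs, t, ht, rfl⟩ := Submodule.mem_sup.mp hu'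
  obtain ⟨d, rfl⟩ := Ideal.mem_span_singleton'.mp ht
  have hd : d ∈ RingHom.ker π.toRingHom := by
    have h1 : π (s + d * ((p ^ k : ℕ) : R)) = 0 := RingHom.mem_ker.mp hu
    rw [map_add, show π s = 0 from RingHom.mem_ker.mp (Ideal.pow_le_self two_ne_zero hs), zero_add,
      map_mul, map_natCast, mul_eq_zero] at h1
    exact RingHom.mem_ker.mpr (h1.resolve_right
      (Nat.cast_ne_zero.mpr (pow_ne_zero k (Fact.out : p.Prime).ne_zero)))
  rw [cls_add (Ideal.pow_le_self two_ne_zero hs) (Ideal.mul_mem_right _ _ hd), cls_eq_zero hs,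
    zero_add, mul_comm, cls_mul _ hd, map_natCast]
  exact Submodule.smul_mem_smul (Ideal.mem_span_singleton_self _) Submodule.mem_top

theorem finite_cot : Module.Finite O (Cot π) := by
  haveI : IsNoetherian O R := isNoetherian_of_isNoetherianRing_of_finite O R
  haveI : Module.Finite O (RingHom.ker π.toRingHom) :=
    Module.Finite.iff_fg.mpr (IsNoetherian.noetherian ((RingHom.ker π.toRingHom).restrictScalars O))
  exact Module.Finite.of_surjective
    ((RingHom.ker π.toRingHom).toCotangent.restrictScalars O) (Ideal.toCotangent_surjective _)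

theorem iInf_cotLevel (hp : (p : O) ∈ maximalIdeal O) : ⨅ k, cotLevel p π k = ⊥ := by
  haveI := finite_cot (π := π)
  refine le_bot_iff.mp (le_trans (iInf_mono fun k => ?_)
    (Ideal.iInf_pow_smul_eq_bot_of_isLocalRing (M := Cot π) _ (maximalIdeal.isMaximal O).ne_top).le)
  refine Submodule.smul_mono_left ?_
  rw [Ideal.span_singleton_le_iff_mem, Nat.cast_pow]
  exact Ideal.pow_mem_pow hp k

variable {q : ℕ} {A : ValuationSubring (AlgebraicClosure ℚ)} {r : GQ →* Mat2 R}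

/-- The classes of the entries of `ρ(τ) - 1` on inertia at `A`. -/
def tameSpan (π : R →ₐ[O] O) (r : GQ →* Mat2 R) (A : ValuationSubring (AlgebraicClosure ℚ)) :
    Submodule O (Cot π) :=
  Submodule.span O {z | ∃ τ ∈ A.inertiaSubgroupIn ℚ, ∃ i j, z = cls π ((r τ - 1) i j)}

/-- The bound at one prime. -/
theorem length_tameSpan_le (hp : (p : O) ∈ maximalIdeal O) (hq : q.Prime) (hqp : q ≠ p)
    (hA : A.LiesOverPrime q)
    (hcts : ∀ J : Ideal R, Finite (R ⧸ J) → ∃ L : IntermediateField ℚ ℚb, FiniteDimensional ℚ L ∧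
      ∀ σ : GQ, (∀ x ∈ L, σ x = x) → red r J σ = 1)
    (hdet : ∀ τ ∈ A.inertiaSubgroupIn ℚ, (r τ).det = 1)
    (hπ : ∀ τ ∈ A.inertiaSubgroupIn ℚ, ∀ i j, π ((r τ - 1) i j) = 0)
    {F : GQ} (hF : A.IsFrobeniusAt F q) (hdetF : π (r F).det = (q : O)) {t : O}
    (ht : π (r F).trace = t) :
    Module.length O (tameSpan π r A) ≤ Module.length O (O ⧸ Ideal.span {gammaQ q t}) := by
  classical
  rcases eq_or_ne (gammaQ q t) 0 with h0 | h0
  · rw [show Module.length O (O ⧸ Ideal.span {gammaQ q t}) = Ring.ord O (gammaQ q t) from rfl, h0,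
      Ring.ord_zero]
    refine le_of_le_of_eq le_top (Eq.symm ?_)
    by_contra hne
    have : IsArtinianRing O :=
      (isFiniteLength_iff_isNoetherian_isArtinian.mp (Module.length_ne_top_iff.mp hne)).2
    exact IsDiscreteValuationRing.not_isField O (IsArtinianRing.isField_of_isDomain O)
  set P := RingHom.ker π.toRingHom with hP
  have hqu : IsUnit (q : O) := by
    by_contra hnu
    have hqm : (q : O) ∈ maximalIdeal O := (mem_maximalIdeal _).mpr hnu
    obtain ⟨u, v, huv⟩ := Nat.isCoprime_iff_coprime.mpr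
      ((Nat.coprime_primes (Fact.out : p.Prime) hq).mpr (Ne.symm hqp))
    have h2 := congrArg (Int.cast : ℤ → O) huv
    push_cast at h2
    exact (maximalIdeal.isMaximal O).ne_top ((Ideal.eq_top_iff_one _).mpr
      (h2 ▸ add_mem (Ideal.mul_mem_left _ _ hp) (Ideal.mul_mem_left _ _ hqm)))
  set a := π (r F 0 0) with ha
  set b := π (r F 0 1) with hb
  set c := π (r F 1 0) with hc
  set d := π (r F 1 1) with hd
  have had : a * d - b * c = (q : O) := by
    rw [← hdetF, Matrix.det_fin_two, map_sub, map_mul, map_mul]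
  have hat : a + d = t := by rw [← ht, Matrix.trace_fin_two, map_add]
  set M : Matrix (Fin 3) (Fin 3) O :=
    !![a * d + b * c - (q : O) ^ 2, -(a * c), b * d;
       -(2 * (a * b)), a ^ 2 - (q : O) ^ 2, -b ^ 2;
       2 * (c * d), -c ^ 2, d ^ 2 - (q : O) ^ 2] with hM
  have hMdet : M.det = (q : O) ^ 3 * -gammaQ q t := by
    rw [gammaQ, ← hat, Matrix.det_fin_three]
    simp only [hM, Matrix.cons_val', Matrix.cons_val_zero, Matrix.cons_val_one,
      Matrix.cons_val_two, Matrix.of_apply, Matrix.cons_val, Matrix.tail_cons, Matrix.head_cons]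
    rw [← had]
    ring
  have hord : Ring.ord O M.det = Module.length O (O ⧸ Ideal.span {gammaQ q t}) := by
    show Module.length O (O ⧸ Ideal.span {M.det}) = _
    rw [hMdet, Ideal.span_singleton_mul_left_unit (hqu.pow 3), Ideal.span_singleton_neg]
  rw [← hord]
  refine length_le_of_forall_level _ (cotLevel p π) (fun i j hij => Submodule.smul_mono_left
    (Ideal.span_singleton_le_span_singleton.mpr (by
      rw [Nat.cast_pow, Nat.cast_pow]; exact pow_dvd_pow _ hij))) (iInf_cotLevel hp) _ fun k => ?_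
  -- the level `k`
  set J : Ideal R := P ^ 2 ⊔ Ideal.span {((p ^ k : ℕ) : R)} with hJ
  haveI : Finite (R ⧸ J) := by
    haveI := finite_quotient_span_natCast O (R := R) (m := p ^ k)
      (pow_ne_zero k (Fact.out : p.Prime).ne_zero)
    exact Finite.of_surjective
      (Ideal.Quotient.factor (le_sup_right : Ideal.span {((p ^ k : ℕ) : R)} ≤ J))
      (Ideal.Quotient.factor_surjective _)
  obtain ⟨L₀, hL₀, hr₀⟩ := hcts J inferInstance
  haveI : Normal ℚ ℚb := IsGalois.to_normal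
  let L : IntermediateField ℚ ℚb := IntermediateField.normalClosure ℚ L₀ ℚb
  haveI : FiniteDimensional ℚ L := normalClosure.is_finiteDimensional ℚ _ _
  haveI : Normal ℚ L := normalClosure.normal ℚ _ _
  haveI : IsGalois ℚ L := ⟨⟩
  have hr : ∀ σ : GQ, (∀ x ∈ L, σ x = x) → red r J σ = 1 := fun σ hσ =>
    hr₀ σ fun x hx => hσ x (L₀.le_normalClosure hx)
  set ρ := red r J with hρ
  let Y : GQ → Mat2 (R ⧸ J) := fun τ => ρ τ - 1
  have hYmk : ∀ τ i j, Y τ i j = Ideal.Quotient.mk J ((r τ - 1) i j) := fun τ i j => by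
    show (ρ τ - 1) i j = _
    rw [Matrix.sub_apply, Matrix.sub_apply, map_sub, Matrix.one_apply, Matrix.one_apply,
      apply_ite (Ideal.Quotient.mk J), map_one, map_zero]
    rfl
  have hmemP : ∀ τ ∈ A.inertiaSubgroupIn ℚ, ∀ i j, (r τ - 1) i j ∈ P := fun τ hτ i j =>
    RingHom.mem_ker.mpr (hπ τ hτ i j)
  have hYY : ∀ τ ∈ A.inertiaSubgroupIn ℚ, ∀ τ' ∈ A.inertiaSubgroupIn ℚ, Y τ * Y τ' = 0 := by
    intro τ hτ τ' hτ'
    ext i j
    rw [Matrix.mul_apply, Matrix.zero_apply]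
    refine Finset.sum_eq_zero fun l _ => ?_
    rw [hYmk, hYmk, ← map_mul, Ideal.Quotient.eq_zero_iff_mem]
    exact Submodule.mem_sup_left (by
      rw [pow_two]; exact Ideal.mul_mem_mul (hmemP τ hτ i l) (hmemP τ' hτ' l j))
  have hadd : ∀ τ ∈ A.inertiaSubgroupIn ℚ, ∀ τ' ∈ A.inertiaSubgroupIn ℚ,
      Y (τ * τ') = Y τ + Y τ' := fun τ hτ τ' hτ' => by
    have h1 := hYY τ hτ τ' hτ'
    simp only [Y, map_mul] at h1 ⊢
    rw [sub_mul, mul_sub, mul_one, one_mul] at h1
    calc ρ τ * ρ τ' - 1 = ρ τ * ρ τ' - ρ τ - (ρ τ' - 1) + (ρ τ - 1) + (ρ τ' - 1) := by abel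
      _ = _ := by rw [h1, zero_add]
  have hY1 : Y 1 = 0 := by simp [Y]
  have hpowY : ∀ τ ∈ A.inertiaSubgroupIn ℚ, ∀ n : ℕ, Y (τ ^ n) = n • Y τ := by
    intro τ hτ n
    induction n with
    | zero => rw [pow_zero, hY1, zero_smul]
    | succ n ih => rw [pow_succ, hadd _ (pow_mem hτ n) _ hτ, ih, succ_nsmul]
  have hwild : ∀ w ∈ A.inertiaSubgroupIn ℚ, ∀ j : ℕ,
      (∀ x ∈ L, (w ^ q ^ j) x = x) → Y w = 0 := by
    intro w hw j hfix
    have h1 : Y (w ^ q ^ j) = 0 := by simp only [Y]; rw [hr _ hfix, sub_self]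
    rw [hpowY w hw] at h1
    have hu : IsUnit (((q ^ j : ℕ) : R ⧸ J)) := by
      rw [Nat.cast_pow]
      refine IsUnit.pow j ?_
      have := hqu.map ((Ideal.Quotient.mk J).comp (algebraMap O R))
      rwa [map_natCast] at this
    ext i l
    have h2 := congrFun (congrFun h1 i) l
    rw [Matrix.smul_apply, nsmul_eq_mul, Matrix.zero_apply, hu.mul_right_eq_zero] at h2
    exact h2
  obtain ⟨τ₀, hτ₀, hgen⟩ := exists_inertia_generator hq hA L
  have himg : ∀ τ ∈ A.inertiaSubgroupIn ℚ, ∃ i : ℕ, Y τ = i • Y τ₀ := by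
    intro τ hτ
    obtain ⟨i, j, hij⟩ := hgen τ hτ
    have hw : τ * (τ₀ ^ i)⁻¹ ∈ A.inertiaSubgroupIn ℚ := mul_mem hτ (inv_mem (pow_mem hτ₀ i))
    refine ⟨i, ?_⟩
    have h1 := hadd _ hw _ (pow_mem hτ₀ i)
    rwa [inv_mul_cancel_right, hwild _ hw j hij, zero_add, hpowY _ hτ₀] at h1
  -- Frobenius multiplies by `q`
  have hconj : F * τ₀ * F⁻¹ ∈ A.inertiaSubgroupIn ℚ :=
    FlatBound.conj_mem_inertia hF.mem_decompositionSubgroup hτ₀
  have hFY : ρ F * Y τ₀ = (q : R ⧸ J) • (Y τ₀ * ρ F) := by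
    obtain ⟨j, hj⟩ := tame_relation hq hA hF hτ₀ L
    have hw : F * τ₀ * F⁻¹ * (τ₀ ^ q)⁻¹ ∈ A.inertiaSubgroupIn ℚ :=
      mul_mem hconj (inv_mem (pow_mem hτ₀ q))
    have h1 := hadd _ hw _ (pow_mem hτ₀ q)
    rw [inv_mul_cancel_right, hwild _ hw j hj, zero_add, hpowY _ hτ₀] at h1
    have h2 : Y (F * τ₀ * F⁻¹) * ρ F = ρ F * Y τ₀ := by
      simp only [Y]
      rw [sub_mul, mul_sub, mul_one, one_mul, ← map_mul, inv_mul_cancel_right, map_mul]
    rw [← h2, h1, Nat.cast_smul_eq_nsmul, smul_mul_assoc]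
  have hscal : ∀ (s : R) (i j : Fin 2), Ideal.Quotient.mk J s * Y τ₀ i j =
      Ideal.Quotient.mk J (algebraMap O R (π s)) * Y τ₀ i j := by
    intro s i j
    rw [hYmk, ← map_mul, ← map_mul, Ideal.Quotient.eq, ← sub_mul]
    refine Submodule.mem_sup_left ?_
    rw [pow_two]
    refine Ideal.mul_mem_mul (RingHom.mem_ker.mpr ?_) (hmemP τ₀ hτ₀ i j)
    show π _ = 0
    rw [map_sub, AlgHom.commutes]
    exact sub_self _
  have hρF : ∀ i j, ρ F i j = Ideal.Quotient.mk J (r F i j) := fun _ _ => rfl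
  set ι := (Ideal.Quotient.mk J).comp (algebraMap O R) with hι
  have hscal' : ∀ i j k l, ρ F i j * Y τ₀ k l = ι (π (r F i j)) * Y τ₀ k l := fun i j k l =>
    hscal _ k l
  have hscal'' : ∀ i j k l, Y τ₀ k l * ρ F i j = ι (π (r F i j)) * Y τ₀ k l := fun i j k l => by
    rw [mul_comm]; exact hscal _ k l
  set x := (r τ₀ - 1) 0 0 with hx
  set y := (r τ₀ - 1) 0 1 with hy
  set z := (r τ₀ - 1) 1 0 with hz
  have hxP : x ∈ P := hmemP _ hτ₀ 0 0
  have hyP : y ∈ P := hmemP _ hτ₀ 0 1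
  have hzP : z ∈ P := hmemP _ hτ₀ 1 0
  have hw1 : Y τ₀ 1 1 = -Y τ₀ 0 0 := by
    rw [hYmk, hYmk, eq_neg_iff_add_eq_zero, ← map_add, Ideal.Quotient.eq_zero_iff_mem]
    refine Submodule.mem_sup_left ?_
    have h1 := hdet _ hτ₀
    rw [Matrix.det_fin_two] at h1
    have h2 : (r τ₀ - 1) 1 1 + (r τ₀ - 1) 0 0 = y * z - x * (r τ₀ - 1) 1 1 := by
      simp only [hx, hy, hz, Matrix.sub_apply, Matrix.one_apply_eq, Matrix.one_apply_ne zero_ne_one,
        Matrix.one_apply_ne one_ne_zero, sub_zero]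
      linear_combination h1
    rw [h2, pow_two]
    exact sub_mem (Ideal.mul_mem_mul hyP hzP) (Ideal.mul_mem_mul hxP (hmemP _ hτ₀ 1 1))
  have heq : ∀ i j, (ρ F * Y τ₀) i j = ((q : R ⧸ J) • (Y τ₀ * ρ F)) i j := fun i j => by rw [hFY]
  have e00 := heq 0 0
  have e01 := heq 0 1
  have e10 := heq 1 0
  have e11 := heq 1 1
  simp only [Matrix.mul_apply, Fin.sum_univ_two, Matrix.smul_apply, smul_eq_mul, hscal', hscal'',
    hw1, ← ha, ← hb, ← hc, ← hd] at e00 e01 e10 e11
  have hιq : ι (q : O) = (q : R ⧸ J) := map_natCast ι q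
  have had' : ι a * ι d - ι b * ι c = (q : R ⧸ J) := by
    rw [← hιq, ← had, map_sub, map_mul, map_mul]
  -- the relations, modulo `J`
  let v : Fin 3 → R := ![x, y, z]
  have hvP : ∀ l, v l ∈ P := fun l => by fin_cases l <;> assumption
  have hrel : ∀ i, ∑ j, M i j • v j ∈ J := by
    intro i
    rw [← Ideal.Quotient.eq_zero_iff_mem, map_sum]
    have hterm : ∀ (s : O) (u : R), Ideal.Quotient.mk J (s • u) = ι s * Ideal.Quotient.mk J u :=
      fun s u => by rw [Algebra.smul_def, map_mul]; rfl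
    simp only [Fin.sum_univ_three, hterm, v]
    fin_cases i <;>
      simp only [hM, Matrix.cons_val', Matrix.cons_val_zero, Matrix.cons_val_one, Matrix.of_apply,
        Matrix.cons_val, Fin.isValue, Fin.zero_eta, Fin.mk_one, Fin.reduceFinMk, map_sub, map_add,
        map_mul, map_neg, map_pow, hιq, map_ofNat, hx, hy, hz, ← hYmk]
    · linear_combination ι d * e00 - ι c * e01 + (q : R ⧸ J) * Y τ₀ 0 0 * had'
    · linear_combination -ι b * e00 + ι a * e01 + (q : R ⧸ J) * Y τ₀ 0 1 * had'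
    · linear_combination ι d * e10 - ι c * e11 + (q : R ⧸ J) * Y τ₀ 1 0 * had'
  -- conclude
  let w : Fin 3 → Cot π ⧸ cotLevel p π k := fun l => (cotLevel p π k).mkQ (cls π (v l))
  have hw : ∀ i, ∑ j, M i j • w j = 0 := by
    intro i
    simp only [w, ← map_smul, ← map_sum]
    refine (Submodule.Quotient.mk_eq_zero _).mpr ?_
    have hcl : ∑ j, M i j • cls π (v j) = cls π (∑ j, M i j • v j) := by
      have hs : ∀ j, M i j • cls π (v j) = cls π (M i j • v j) := fun j => by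
        rw [Algebra.smul_def (M i j) (v j), cls_mul _ (hvP j), AlgHom.commutes]
        rfl
      have hm : ∀ j, M i j • v j ∈ P := fun j => by
        rw [Algebra.smul_def]; exact Ideal.mul_mem_left _ _ (hvP j)
      simp only [hs, Fin.sum_univ_three]
      rw [cls_add (add_mem (hm 0) (hm 1)) (hm 2), cls_add (hm 0) (hm 1)]
    rw [hcl]
    exact cls_mem_level (Ideal.sum_mem _ fun j _ => by
      rw [Algebra.smul_def]; exact Ideal.mul_mem_left _ _ (hvP j)) (hrel i)
  refine le_trans ?_ (length_span_le_ord_det M (by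
    rw [hMdet]; exact mul_ne_zero (pow_ne_zero _ hqu.ne_zero) (neg_ne_zero.mpr h0)) w hw)
  refine Module.length_le_of_injective (Submodule.inclusion ?_) (Submodule.inclusion_injective _)
  rw [Submodule.map_le_iff_le_comap]
  refine Submodule.span_le.mpr ?_
  rintro _ ⟨τ, hτ, i, j, rfl⟩
  show (cotLevel p π k).mkQ (cls π ((r τ - 1) i j)) ∈ Submodule.span O (Set.range w)
  obtain ⟨n, hn⟩ := himg τ hτ
  -- reduce to the generator
  obtain ⟨s, l, hsl⟩ : ∃ (s : O) (l : Fin 3), Y τ₀ i j = ι s * Ideal.Quotient.mk J (v l) := by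
    fin_cases i <;> fin_cases j
    · exact ⟨1, 0, by rw [map_one, one_mul]; exact hYmk _ _ _⟩
    · exact ⟨1, 1, by rw [map_one, one_mul]; exact hYmk _ _ _⟩
    · exact ⟨1, 2, by rw [map_one, one_mul]; exact hYmk _ _ _⟩
    · exact ⟨-1, 0, by rw [map_neg, map_one, neg_one_mul]; exact hw1.trans (congrArg _ (hYmk _ _ _))⟩
  have hmem : (r τ - 1) i j - ((n : O) * s) • v l ∈ J := by
    rw [← Ideal.Quotient.eq_zero_iff_mem, map_sub, ← hYmk, hn, Algebra.smul_def ((n : O) * s) (v l), map_mul,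
      show Ideal.Quotient.mk J (algebraMap O R ((n : O) * s)) = ι ((n : O) * s) from rfl,
      map_mul, map_natCast, mul_assoc, ← hsl, Matrix.smul_apply, nsmul_eq_mul, sub_self]
  have hsv : ((n : O) * s) • v l ∈ P := by
    rw [Algebra.smul_def]; exact Ideal.mul_mem_left _ _ (hvP l)
  have h1 := cls_mem_level (k := k) (sub_mem (hmemP τ hτ i j) hsv) hmem
  have h2 : cls π ((r τ - 1) i j) =
      cls π ((r τ - 1) i j - ((n : O) * s) • v l) + ((n : O) * s) • cls π (v l) := by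
    conv_lhs => rw [← sub_add_cancel ((r τ - 1) i j) (((n : O) * s) • v l)]
    rw [cls_add (sub_mem (hmemP τ hτ i j) hsv) hsv, Algebra.smul_def ((n : O) * s) (v l),
      cls_mul _ (hvP l), AlgHom.commutes]
    rfl
  rw [h2, map_add, map_smul, show (cotLevel p π k).mkQ (cls π ((r τ - 1) i j -
      ((n : O) * s) • v l)) = 0 from (Submodule.Quotient.mk_eq_zero _).mpr h1, zero_add]
  exact Submodule.smul_mem _ _ (Submodule.subset_span ⟨l, rfl⟩)

end Fermat.Agent.R59.Phi
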