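/-
S59, unit H: the cotangent space of a point factoring through a quotient, the unit root, and the
vanishing of the kernel on a minimal point.
-/
import Fermat.Agent.R59.Phi.Tame
import Fermat.Agent.R59.Phi.Quot
import Fermat.Agent.GD.GW.Levels

set_option autoImplicit false
set_option linter.style.haveILetI false
set_option linter.unusedSectionVars false

noncomputable section

namespace Fermat.Agent.R59.Phi

open IsLocalRing Matrix
open Fermat.Agent.Galois (GQ)
open Fermat.Agent.Deform (Mat2 mapHom HasMatrix)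
open scoped Pointwise

local notation "ℚb" => AlgebraicClosure ℚ

section Cot

variable {O R Z : Type} [CommRing O] [CommRing R] [CommRing Z] [Algebra O R] [Algebra O Z]

/-- The cotangent space of a point through a quotient loses at most the classes of the kernel. -/
theorem cotLen_le_add (π : R →ₐ[O] O) (f : R →ₐ[O] Z) (hf : Function.Surjective f) (π' : Z →ₐ[O] O)
    (hπ : π'.comp f = π) (K : Submodule O (Cot π))
    (hK : ∀ u, f u = 0 → cls π u ∈ K) : cotLen π ≤ cotLen π' + Module.length O K := by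
  set P := RingHom.ker π.toRingHom with hP
  set P' := RingHom.ker π'.toRingHom with hP'
  have hle : P ≤ P'.comap f := fun u hu => by
    show π' (f u) = 0
    rw [← AlgHom.comp_apply, hπ]
    exact hu
  let F : Cot π →ₗ[O] Cot π' := Ideal.mapCotangent P P' f hle
  have hmap : (P.map f.toRingHom) = P' := by
    refine le_antisymm (Ideal.map_le_iff_le_comap.mpr hle) fun z hz => ?_
    obtain ⟨u, rfl⟩ := hf z
    refine Ideal.mem_map_of_mem f.toRingHom (RingHom.mem_ker.mpr ?_)
    show π u = 0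
    rw [← hπ, AlgHom.comp_apply]
    exact hz
  have hF : Function.Surjective F := fun y => by
    obtain ⟨⟨z, hz⟩, rfl⟩ := P'.toCotangent_surjective y
    obtain ⟨u, rfl⟩ := hf z
    have hu : u ∈ P := by
      show π u = 0
      rw [← hπ, AlgHom.comp_apply]
      exact hz
    exact ⟨P.toCotangent ⟨u, hu⟩, rfl⟩
  have hker : LinearMap.ker F ≤ K := by
    intro x hx
    obtain ⟨⟨u, hu⟩, rfl⟩ := P.toCotangent_surjective x
    have h1 : P'.toCotangent ⟨f u, hle hu⟩ = 0 := hx
    rw [Ideal.toCotangent_eq_zero] at h1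
    have h2 : f u ∈ (P ^ 2).map f.toRingHom := by
      rw [Ideal.map_pow, hmap]
      exact h1
    obtain ⟨s, hs, hsu⟩ := (Ideal.mem_map_iff_of_surjective f.toRingHom hf).mp h2
    have h3 := hK (u - s) (by rw [map_sub, sub_eq_zero]; exact hsu.symm)
    have h4 : cls π u = cls π (u - s) := by
      conv_lhs => rw [← sub_add_cancel u s]
      rw [cls_add (sub_mem hu (Ideal.pow_le_self two_ne_zero hs)) (Ideal.pow_le_self two_ne_zero hs),
        cls_eq_zero hs, add_zero]
    rw [← cls_eq (π := π) hu, h4]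
    exact h3
  let e : LinearMap.ker F →ₗ[O] Cot π := (LinearMap.ker F).subtype
  show Module.length O (Cot π) ≤ Module.length O (Cot π') + Module.length O K
  rw [Module.length_eq_add_of_exact (R := O) (M := Cot π) (N := LinearMap.ker F) (P := Cot π') e F
    Subtype.val_injective hF (LinearMap.exact_subtype_ker_map F), add_comm]
  exact add_le_add le_rfl
    (Module.length_le_of_injective (Submodule.inclusion hker) (Submodule.inclusion_injective _))

/-- The elements with classes in a submodule form an ideal. -/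
def clsIdeal (π : R →ₐ[O] O) (K : Submodule O (Cot π)) : Ideal R where
  carrier := {u | π u = 0 ∧ cls π u ∈ K}
  add_mem' {u v} hu hv := ⟨by rw [map_add, hu.1, hv.1, add_zero], by
    rw [cls_add (RingHom.mem_ker.mpr hu.1) (RingHom.mem_ker.mpr hv.1)]
    exact add_mem hu.2 hv.2⟩
  zero_mem' := ⟨map_zero π, by
    rw [cls_eq_zero (zero_mem _)]
    exact zero_mem K⟩
  smul_mem' s u hu := ⟨by rw [smul_eq_mul, map_mul, hu.1, mul_zero], by
    rw [smul_eq_mul, cls_mul _ (RingHom.mem_ker.mpr hu.1)]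
    exact Submodule.smul_mem _ _ hu.2⟩

theorem length_sup_le {C : Type} [AddCommGroup C] [Module O C] (S T : Submodule O C) :
    Module.length O (S ⊔ T : Submodule O C) ≤ Module.length O S + Module.length O T := by
  let F : (S × T) →ₗ[O] (S ⊔ T : Submodule O C) :=
    (Submodule.inclusion le_sup_left).coprod (Submodule.inclusion le_sup_right)
  rw [← Module.length_prod]
  refine Module.length_le_of_surjective F fun y => ?_
  obtain ⟨s, hs, t, ht, hst⟩ := Submodule.mem_sup.mp y.2
  exact ⟨(⟨s, hs⟩, ⟨t, ht⟩), Subtype.ext hst⟩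

theorem length_finsetSup_le {C : Type} [AddCommGroup C] [Module O C] {ι : Type} (s : Finset ι)
    (S : ι → Submodule O C) :
    Module.length O (s.sup S : Submodule O C) ≤ ∑ i ∈ s, Module.length O (S i) := by
  classical
  induction s using Finset.induction_on with
  | empty =>
    rw [Finset.sup_empty, Finset.sum_empty]
    exact (Module.length_eq_zero (R := O) (M := (⊥ : Submodule O C))).le
  | insert i s hi ih =>
    rw [Finset.sup_insert, Finset.sum_insert hi]
    exact (length_sup_le _ _).trans (add_le_add le_rfl ih)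

/-- A cyclic module killed by `γ`. -/
theorem length_span_singleton_le {C : Type} [AddCommGroup C] [Module O C] {γ : O} {z : C}
    (h : γ • z = 0) :
    Module.length O (O ∙ z) ≤ Module.length O (O ⧸ Ideal.span {γ}) := by
  have hle : Ideal.span {γ} ≤ LinearMap.ker (LinearMap.toSpanSingleton O C z) :=
    (Ideal.span_singleton_le_iff_mem _).mpr h
  let F : (O ⧸ Ideal.span {γ}) →ₗ[O] C :=
    Submodule.liftQ (Ideal.span {γ}) (LinearMap.toSpanSingleton O C z) hle
  have hF : LinearMap.range F = (O ∙ z) := by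
    rw [Submodule.range_liftQ, ← LinearMap.span_singleton_eq_range]
  rw [← hF]
  exact Module.length_le_of_surjective F.rangeRestrict F.surjective_rangeRestrict

end Cot

variable {p : ℕ} [Fact p.Prime] {A : ValuationSubring (AlgebraicClosure ℚ)}

/-- An inertia element at `p` with nontrivial cyclotomic character. -/
theorem exists_det_ne_one (hp2 : p ≠ 2) (hA : A.LiesOverPrime p) {O : Type} [CommRing O] [IsDomain O]
    [IsDiscreteValuationRing O] (hp : (p : O) ∈ maximalIdeal O) :
    ∃ τ ∈ A.inertiaSubgroupIn ℚ, ∀ δ : O,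
      (∀ a : ℕ, (∀ μ : ℚb, μ ^ p ^ 1 = 1 → τ μ = μ ^ a) →
        δ - (a : O) ∈ Ideal.span {((p ^ 1 : ℕ) : O)}) → δ ≠ 1 := by
  have hpp : p.Prime := Fact.out
  haveI : NeZero p := ⟨hpp.ne_zero⟩
  obtain ⟨τ, hτ, hτc⟩ := Auto.Tame.exists_inertia_cycM hpp hA (-1 : (ZMod p)ˣ)
  refine ⟨τ, hτ, fun δ hδ h1 => ?_⟩
  have h2 := hδ ((-1 : (ZMod p)ˣ) : ZMod p).val fun μ hμ => by
    rw [pow_one] at hμ
    rw [GalRep.Level.cycM_spec τ hμ, hτc]
  set a := (((-1 : (ZMod p)ˣ) : ZMod p)).val with ha
  have ha1 : a + 1 = p := by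
    obtain ⟨k, hk⟩ : ∃ k, p = k + 1 := Nat.exists_eq_succ_of_ne_zero hpp.ne_zero
    subst hk
    rw [ha, Units.val_neg, Units.val_one, ZMod.val_neg_one]
  -- `2` is in the maximal ideal
  have h3 : δ - (a : O) ∈ maximalIdeal O :=
    (Ideal.span_singleton_le_iff_mem _).mpr (by rwa [pow_one]) h2
  have h4 : ((2 : ℕ) : O) ∈ maximalIdeal O := by
    have h5 : ((2 : ℕ) : O) = (δ - (a : O)) + (p : O) := by
      rw [h1, ← ha1]
      push_cast
      ring
    rw [h5]
    exact add_mem h3 hp
  obtain ⟨u, v, huv⟩ := Nat.isCoprime_iff_coprime.mpr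
    ((Nat.coprime_primes hpp Nat.prime_two).mpr hp2)
  have h5 := congrArg (Int.cast : ℤ → O) huv
  push_cast at h5
  exact (maximalIdeal.isMaximal O).ne_top ((Ideal.eq_top_iff_one _).mpr
    (h5 ▸ add_mem (Ideal.mul_mem_left _ _ hp) (Ideal.mul_mem_left _ _ (by simpa using h4))))

/-- Two triangular forms with the same traces and cyclotomic determinant have the same unramified
character at elements of the decomposition group. -/
theorem unram_eq {O : Type} [CommRing O] [IsDomain O] (r₁ r₂ : GQ →* Mat2 O)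
    (htr : ∀ σ, (r₁ σ).trace = (r₂ σ).trace) {φ τ : GQ}
    (hlow₁ : r₁ φ 1 0 = 0) (hτlow₁ : r₁ τ 1 0 = 0) (hτ₁ : r₁ τ 1 1 = 1)
    (hlow₂ : r₂ φ 1 0 = 0) (hτlow₂ : r₂ τ 1 0 = 0) (hτ₂ : r₂ τ 1 1 = 1)
    (hdet : (r₁ τ).det = (r₂ τ).det) (hne : (r₁ τ).det ≠ 1) : r₁ φ 1 1 = r₂ φ 1 1 := by
  have e1 := htr φ
  have e2 := htr (φ * τ)
  simp only [map_mul, Matrix.trace_fin_two, Matrix.mul_apply, Fin.sum_univ_two, hlow₁, hlow₂,
    hτlow₁, hτlow₂, hτ₁, hτ₂, mul_zero, zero_mul, mul_one, add_zero, zero_add] at e1 e2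
  rw [Matrix.det_fin_two, hτlow₁, hτ₁, mul_zero, sub_zero, mul_one] at hdet hne
  rw [Matrix.det_fin_two, hτlow₂, hτ₂, mul_zero, sub_zero, mul_one] at hdet
  rw [← hdet] at e2
  have h3 : (r₁ τ 0 0 - 1) * (r₁ φ 1 1 - r₂ φ 1 1) = 0 := by
    linear_combination r₁ τ 0 0 * e1 - e2
  exact sub_eq_zero.mp ((mul_eq_zero.mp h3).resolve_left (sub_ne_zero.mpr hne))

/-- Inertia elements at all places over a prime have entries in the ideal of one place. -/
theorem entries_mem_of_conj {R : Type} [CommRing R] (r : GQ →* Mat2 R) {q : ℕ} (hq : q.Prime)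
    (hA : A.LiesOverPrime q) {I : Ideal R}
    (hI : ∀ τ ∈ A.inertiaSubgroupIn ℚ, ∀ i j, (r τ - 1) i j ∈ I)
    {P : ValuationSubring (AlgebraicClosure ℚ)} (hP : P.LiesOverPrime q) {σ : GQ}
    (hσ : σ ∈ P.inertiaSubgroupIn ℚ) : (mapHom (Ideal.Quotient.mk I)).comp r σ = 1 := by
  obtain ⟨γ, rfl⟩ := Galois.exists_smul_eq_of_liesOverPrime hq hA hP
  set τ := γ⁻¹ * σ * γ with hτdef
  have hτ : τ ∈ A.inertiaSubgroupIn ℚ := GD.mem_inertia_conj hσ
  have hρτ : (mapHom (Ideal.Quotient.mk I)).comp r τ = 1 := by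
    ext i j
    show Ideal.Quotient.mk I (r τ i j) = (1 : Mat2 (R ⧸ I)) i j
    have h1 := Ideal.Quotient.eq_zero_iff_mem.mpr (hI τ hτ i j)
    rw [Matrix.sub_apply, map_sub, sub_eq_zero, Matrix.one_apply, apply_ite (Ideal.Quotient.mk I),
      map_one, map_zero] at h1
    rw [h1, Matrix.one_apply]
  rw [show σ = γ * τ * γ⁻¹ by rw [hτdef]; group, map_mul, map_mul, hρτ, mul_one, ← map_mul,
    mul_inv_cancel, map_one]

end Fermat.Agent.R59.Phi
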